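import Fermat.Agent.S17.H680.Descent
import Fermat.Agent.S24.Alg.LocPlace
import Fermat.Agent.Lib.RR.H804.Modular
import Fermat.Prelude.Def_ModularCurve_ArithmeticGalois

/-!
# S17 / P2 (helper680): the cusp `∞` is Galois-stable; descent for `J₀(N)`

* `cuspInf F₀ hneg` : the place `ord_q` of `laurentBaseChange L F₀ ⊆ L((q))`;
* `arithmeticGalois_smul_cuspInf` : it is fixed by the coefficientwise Galois action;
* `JZero.galois_smul_minRep` : for a Galois-fixed class `x ∈ J₀(N)`, the minimal representative
  `E_x` (effective, degree `≤ g`, prime to `∞`, `x = [E_x - m ∞]`) is a Galois-invariant divisor.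
-/

set_option autoImplicit false

noncomputable section

open AlgebraicCurve ModularCurve

namespace Fermat.Agent.S17.H680

open Fermat.Agent.Lib.RR

section General

variable {L : Type*} [Field L] [Algebra ℚ L]
variable (F₀ : IntermediateField ℚ (LaurentSeries ℚ))

/-- The inclusion of the function field into the Laurent series. -/
def inclLaurent : laurentBaseChange L F₀ →+* LaurentSeries L :=
  (laurentBaseChange L F₀).toSubfield.subtype

@[simp]
theorem inclLaurent_apply (x : laurentBaseChange L F₀) :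
    inclLaurent F₀ x = (x : LaurentSeries L) := rfl

omit [Algebra ℚ L] in
theorem order_algebraMap_laurent (c : L) :
    (algebraMap L (LaurentSeries L) c).order = 0 := by
  rw [algebraMap_laurentSeries_eq_single]
  rcases eq_or_ne c 0 with rfl | hc
  · simp
  · exact HahnSeries.order_single hc

/-- The place `ord_q` of the function field `laurentBaseChange L F₀`. -/
def cuspInf (hneg : ∃ f : laurentBaseChange L F₀, (f : LaurentSeries L).order < 0) :
    Place L (laurentBaseChange L F₀) :=
  Fermat.Agent.S24.H144.placeOfEmb (inclLaurent F₀)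
    (fun c => le_of_eq (order_algebraMap_laurent c).symm) hneg

theorem mem_cuspInf (hneg : ∃ f : laurentBaseChange L F₀, (f : LaurentSeries L).order < 0)
    (f : laurentBaseChange L F₀) :
    f ∈ (cuspInf F₀ hneg).toValuationSubring ↔ 0 ≤ (f : LaurentSeries L).order :=
  Iff.rfl

omit [Algebra ℚ L] in
theorem order_coeffMap_of_injective (φ : L →+* L) (hφ : Function.Injective φ)
    (x : LaurentSeries L) : (coeffMap φ x).order = x.order := by
  classical
  rcases eq_or_ne x 0 with rfl | hx
  · simp
  have hx' : coeffMap φ x ≠ 0 := by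
    intro h
    apply hx
    ext k
    have := congrArg (fun y => HahnSeries.coeff y k) h
    simp only [coeffMap_coeff, HahnSeries.coeff_zero] at this
    rw [HahnSeries.coeff_zero]
    exact hφ (by rw [this, map_zero])
  have hsupp : (coeffMap φ x).support = x.support := by
    ext k
    simp only [HahnSeries.mem_support, coeffMap_coeff, ne_eq]
    rw [map_eq_zero_iff φ hφ]
  rw [HahnSeries.order_of_ne hx', HahnSeries.order_of_ne hx]
  congr 1

/-- The cusp `∞` is fixed by the coefficientwise Galois action. -/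
theorem arithmeticGalois_smul_cuspInf
    (hneg : ∃ f : laurentBaseChange L F₀, (f : LaurentSeries L).order < 0) (σ : L ≃ₐ[ℚ] L) :
    arithmeticGalois F₀ σ • cuspInf F₀ hneg = cuspInf F₀ hneg := by
  apply Place.ext
  ext f
  rw [SemilinearAut.smul_toValuationSubring,
    ValuationSubring.mem_pointwise_smul_iff_inv_smul_mem, mem_cuspInf, mem_cuspInf]
  have h : (((arithmeticGalois F₀ σ)⁻¹ • f : laurentBaseChange L F₀) : LaurentSeries L)
      = coeffMap ((σ⁻¹ : L ≃ₐ[ℚ] L) : L →+* L) (f : LaurentSeries L) := by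
    rw [← map_inv]
    exact coe_arithmeticGalois_smul F₀ σ⁻¹ f
  rw [h, order_coeffMap_of_injective _ (σ⁻¹ : L ≃ₐ[ℚ] L).injective]

end General

/-! ### The modular function field -/

section Modular

variable (N : ℕ) [NeZero N]

theorem jq_order_neg : jq.order < 0 := by
  have h : jq.order ≤ -1 := HahnSeries.order_le_of_coeff_ne_zero (by
    rw [coeff_jq_neg_one]; exact one_ne_zero)
  omega

theorem exists_order_neg_modular :
    ∃ f : modularFunctionFieldBar N, (f : LaurentSeries (AlgebraicClosure ℚ)).order < 0 := by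
  refine ⟨⟨coeffEmb (AlgebraicClosure ℚ) jq,
    coeffEmb_mem_laurentBaseChange _ (modularFunctionField_le_full N (jq_mem N))⟩, ?_⟩
  show (coeffEmb (AlgebraicClosure ℚ) jq).order < 0
  have h : (coeffEmb (AlgebraicClosure ℚ) jq).order ≤ -1 :=
    HahnSeries.order_le_of_coeff_ne_zero (by
      rw [coeffEmb_coeff, coeff_jq_neg_one, map_one]; exact one_ne_zero)
  omega

/-- The cusp `∞` of `X₀(N)`, as a place of `ℚ̄(X₀(N))`. -/
def JZero.cusp : Place (AlgebraicClosure ℚ) (modularFunctionFieldBar N) :=
  cuspInf (modularFunctionFieldFull N) (exists_order_neg_modular N)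

theorem JZero.galois_smul_cusp (σ : AlgebraicClosure ℚ ≃ₐ[ℚ] AlgebraicClosure ℚ) :
    arithmeticGalois (modularFunctionFieldFull N) σ • JZero.cusp N = JZero.cusp N :=
  arithmeticGalois_smul_cuspInf _ _ σ

omit [NeZero N] in
/-- Membership in the Mordell–Weil group `J₀(N)(ℚ)`. -/
theorem JZero.mem_fixedPoints_iff (x : JZero N) :
    x ∈ FixedPoints.addSubgroup (AlgebraicClosure ℚ ≃ₐ[ℚ] AlgebraicClosure ℚ) (JZero N) ↔
      ∀ σ : AlgebraicClosure ℚ ≃ₐ[ℚ] AlgebraicClosure ℚ,
        arithmeticGalois (modularFunctionFieldFull N) σ • x = x :=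
  Iff.rfl

/-- **Galois descent for `J₀(N)`**: the minimal representative of a rational class is a
Galois-invariant effective divisor. -/
theorem JZero.galois_smul_minRep {x : JZero N}
    (hx : x ∈ FixedPoints.addSubgroup (AlgebraicClosure ℚ ≃ₐ[ℚ] AlgebraicClosure ℚ) (JZero N))
    (σ : AlgebraicClosure ℚ ≃ₐ[ℚ] AlgebraicClosure ℚ) :
    arithmeticGalois (modularFunctionFieldFull N) σ • minRep (JZero.cusp N) x
      = minRep (JZero.cusp N) x :=
  smul_minRep_eq _ (JZero.galois_smul_cusp N σ) ((JZero.mem_fixedPoints_iff N x).mp hx σ)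

/-- Summary of the descent statement for `J₀(N)(ℚ)`. -/
theorem JZero.exists_invariant_rep {x : JZero N}
    (hx : x ∈ FixedPoints.addSubgroup (AlgebraicClosure ℚ ≃ₐ[ℚ] AlgebraicClosure ℚ) (JZero N)) :
    ∃ (m : ℕ) (E : Divisor (AlgebraicClosure ℚ) (modularFunctionFieldBar N))
      (hdeg : Divisor.degree (E - m • prim (JZero.cusp N)) = 0),
      m ≤ genusR (AlgebraicClosure ℚ) (modularFunctionFieldBar N) ∧ 0 ≤ E ∧
      Divisor.degree E = m ∧ E (JZero.cusp N) = 0 ∧ ell E = 1 ∧
      (∀ σ : AlgebraicClosure ℚ ≃ₐ[ℚ] AlgebraicClosure ℚ,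
        arithmeticGalois (modularFunctionFieldFull N) σ • E = E) ∧
      Pic0.mk ⟨E - m • prim (JZero.cusp N), hdeg⟩ = x :=
  ⟨minDeg (JZero.cusp N) x, minRep (JZero.cusp N) x, degree_minRep_sub _ x,
    minDeg_le_genus _ x, minRep_nonneg _ x, degree_minRep _ x, minRep_apply_infty _ x,
    ell_minRep _ x, fun σ => JZero.galois_smul_minRep N hx σ, mk_minDiv _ x⟩

end Modular

end Fermat.Agent.S17.H680
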