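import Fermat.Agent.Lib.RR.Riemann
import Fermat.Prelude.Def_AlgebraicCurve_BaseChangeGalois

/-!
# S17 / P2 (helper680): minimal representatives of divisor classes, Galois descent

Let `F / K` be a function field all of whose places have degree one (`FF1 K F`) and let `vinf` be a
place.  Every class `x ∈ Pic⁰(F)` has a unique *minimal representative*: the least `m` with
`ℓ(x + m vinf) ≥ 1` (then `ℓ = 1` and `m ≤ g`), and the unique effective divisor `E` of degree `m`
with `x = [E - m vinf]`; moreover `E(vinf) = 0`.

The construction is equivariant for every semilinear automorphism fixing `vinf`; hence a class fixed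
by a group `Γ` of such automorphisms is represented by the `Γ`-invariant divisor `E - m vinf`.
-/

set_option autoImplicit false

noncomputable section

open AlgebraicCurve

namespace Fermat.Agent.S17.H680

open Fermat.Agent.Lib.RR

variable {K F : Type*} [Field K] [Field F] [Algebra K F]

/-! ### Generalities on divisors -/

section Generalities

variable [FF1 K F]

theorem apply_le_degree {E : Divisor K F} (h0 : 0 ≤ E) (v : Place K F) :
    E v ≤ Divisor.degree E := by
  classical
  have hge : E v • prim v ≤ E := by
    rw [Finsupp.le_def]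
    intro w
    by_cases hw : w = v
    · subst hw
      simp [prim]
    · have : (0 : ℤ) ≤ E w := by simpa using Finsupp.le_def.mp h0 w
      simpa [prim, Finsupp.single_apply, Ne.symm hw] using this
  have := degree_mono hge
  rw [map_zsmul, degree_prim v (deg_eq_one v)] at this
  simpa using this

theorem eq_zero_of_nonneg_of_degree_eq_zero {E : Divisor K F} (h0 : 0 ≤ E)
    (hd : Divisor.degree E = 0) : E = 0 := by
  ext v
  have h1 := apply_le_degree h0 v
  have h2 : (0 : ℤ) ≤ E v := by simpa using Finsupp.le_def.mp h0 v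
  rw [hd] at h1
  simpa using le_antisymm h1 h2

theorem divOf_mul (f g : F) (hf : f ≠ 0) (hg : g ≠ 0) :
    divOf (K := K) (f * g) (mul_ne_zero hf hg) = divOf f hf + divOf g hg := by
  ext v
  simp [divOf_apply, v.ord_mul hf hg]

theorem divOf_inv (f : F) (hf : f ≠ 0) :
    divOf (K := K) f⁻¹ (inv_ne_zero hf) = -divOf f hf := by
  ext v
  simp [divOf_apply, v.ord_inv]

theorem divOf_algebraMap (c : K) (hc : algebraMap K F c ≠ 0) :
    divOf (K := K) (algebraMap K F c) hc = 0 := by
  ext v
  simp [divOf_apply, ord_algebraMap]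

theorem divOf_congr {f g : F} (hf : f ≠ 0) (h : f = g) :
    divOf (K := K) f hf = divOf g (h ▸ hf) := by
  subst h; rfl

theorem divOf_smul (c : K) (hc : c ≠ 0) (f : F) (hf : f ≠ 0) (h : c • f ≠ 0) :
    divOf (K := K) (c • f) h = divOf f hf := by
  ext v
  have hc' : algebraMap K F c ≠ 0 := by
    simpa using hc
  rw [divOf_apply, divOf_apply, Algebra.smul_def, v.ord_mul hc' hf, ord_algebraMap, zero_add]

theorem mem_L_iff_nonneg {D : Divisor K F} {f : F} (hf : f ≠ 0) :
    f ∈ riemannRochSpace D ↔ 0 ≤ D + divOf f hf := by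
  rw [mem_L_iff, Finsupp.le_def]
  constructor
  · intro h v
    have := (h v).resolve_left hf
    simp only [Finsupp.coe_zero, Pi.zero_apply, Finsupp.coe_add, Pi.add_apply, divOf_apply]
    omega
  · intro h v
    right
    have := h v
    simp only [Finsupp.coe_zero, Pi.zero_apply, Finsupp.coe_add, Pi.add_apply,
      divOf_apply] at this
    omega

omit [FF1 K F] in
theorem add_nsmul_prim_apply (D : Divisor K F) (m : ℕ) (v w : Place K F) :
    (D + m • prim v) w = D w + m * prim v w := by
  simp [Finsupp.add_apply, Finsupp.smul_apply]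

theorem isPrincipal_iff {D : Divisor K F} :
    D ∈ Divisor.principal (K := K) (F := F) ↔ ∃ (h : F) (hh : h ≠ 0), D = divOf h hh := by
  rw [Divisor.mem_principal]
  constructor
  · rintro ⟨h, hh, hD⟩
    refine ⟨h, hh, ?_⟩
    ext v
    rw [hD v, divOf_apply]
  · rintro ⟨h, hh, rfl⟩
    exact ⟨h, hh, fun v => divOf_apply h hh v⟩

/-- In a one-dimensional `L(D)`, any two nonzero elements have the same divisor. -/
theorem divOf_eq_of_ell_eq_one {D : Divisor K F} (h1 : ell D = 1) {f f' : F} (hf : f ≠ 0)
    (hf' : f' ≠ 0) (hfL : f ∈ riemannRochSpace D) (hfL' : f' ∈ riemannRochSpace D) :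
    divOf (K := K) f hf = divOf f' hf' := by
  have hfin : Module.finrank K (riemannRochSpace D) = 1 := h1
  have hne : (⟨f, hfL⟩ : riemannRochSpace D) ≠ 0 := fun h => hf (congrArg Subtype.val h)
  obtain ⟨c, hc⟩ := (finrank_eq_one_iff_of_nonzero' ⟨f, hfL⟩ hne).mp hfin ⟨f', hfL'⟩
  have hc' : c • f = f' := congrArg Subtype.val hc
  have hc0 : c ≠ 0 := by
    rintro rfl
    rw [zero_smul] at hc'
    exact hf' hc'.symm
  have hcf : c • f ≠ 0 := by rw [hc']; exact hf'
  rw [← divOf_smul c hc0 f hf hcf]
  exact divOf_congr hcf hc'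

end Generalities

/-! ### Minimal representatives, on the level of divisors -/

section MinRepD

variable [FF1 K F] (vinf : Place K F)

theorem exists_one_le_ell (D : Divisor K F) : ∃ m : ℕ, 1 ≤ ell (D + m • prim vinf) := by
  refine ⟨(genusR K F - Divisor.degree D).toNat, ?_⟩
  have h := riemann_inequality (D + (genusR K F - Divisor.degree D).toNat • prim vinf)
  rw [map_add, map_nsmul, degree_prim vinf (deg_eq_one vinf), nsmul_eq_mul, mul_one] at h
  have h2 : (genusR K F : ℤ) - Divisor.degree D ≤ ((genusR K F - Divisor.degree D).toNat : ℤ) :=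
    Int.self_le_toNat _
  have h3 : (1 : ℤ) ≤ ell (D + (genusR K F - Divisor.degree D).toNat • prim vinf) := by omega
  exact_mod_cast h3

open Classical in
/-- The least `m` with `ℓ(D + m vinf) ≥ 1`. -/
def minDegD (D : Divisor K F) : ℕ := Nat.find (exists_one_le_ell vinf D)

theorem one_le_ell_minDegD (D : Divisor K F) : 1 ≤ ell (D + minDegD vinf D • prim vinf) := by
  classical
  exact Nat.find_spec (exists_one_le_ell vinf D)

theorem minDegD_le {D : Divisor K F} {m : ℕ} (h : 1 ≤ ell (D + m • prim vinf)) :
    minDegD vinf D ≤ m := by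
  classical
  exact Nat.find_min' (exists_one_le_ell vinf D) h

theorem ell_eq_zero_of_lt_minDegD {D : Divisor K F} {m : ℕ} (h : m < minDegD vinf D) :
    ell (D + m • prim vinf) = 0 := by
  classical
  have := Nat.find_min (exists_one_le_ell vinf D) h
  omega

theorem minDegD_le_genus {D : Divisor K F} (hD : Divisor.degree D = 0) :
    minDegD vinf D ≤ genusR K F := by
  apply minDegD_le
  have h := riemann_inequality (D + genusR K F • prim vinf)
  rw [map_add, map_nsmul, degree_prim vinf (deg_eq_one vinf), nsmul_eq_mul, mul_one, hD] at h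
  have h3 : (1 : ℤ) ≤ ell (D + genusR K F • prim vinf) := by omega
  exact_mod_cast h3

theorem ell_minDegD {D : Divisor K F} (hD : Divisor.degree D ≤ 0) :
    ell (D + minDegD vinf D • prim vinf) = 1 := by
  refine le_antisymm ?_ (one_le_ell_minDegD vinf D)
  rcases Nat.eq_zero_or_pos (minDegD vinf D) with h0 | hpos
  · rw [h0, zero_smul, add_zero]
    have h1 := one_le_ell_minDegD vinf D
    rw [h0, zero_smul, add_zero] at h1
    have h2 := ell_le_toNat D
    have h3 : (Divisor.degree D + 1).toNat ≤ 1 := by omega
    omega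
  · have hlt : minDegD vinf D - 1 < minDegD vinf D := by omega
    have h1 := ell_eq_zero_of_lt_minDegD vinf hlt
    have h2 := ell_add_prim_le (D + (minDegD vinf D - 1) • prim vinf) vinf
    have h3 : D + (minDegD vinf D - 1) • prim vinf + prim vinf = D + minDegD vinf D • prim vinf := by
      rw [add_assoc, ← succ_nsmul]
      congr 2
      omega
    rw [h3, h1] at h2
    exact h2

theorem exists_minFun (D : Divisor K F) :
    ∃ f : F, f ≠ 0 ∧ f ∈ riemannRochSpace (D + minDegD vinf D • prim vinf) := by
  have h := one_le_ell_minDegD vinf D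
  have hpos : 0 < Module.finrank K (riemannRochSpace (D + minDegD vinf D • prim vinf)) := h
  obtain ⟨⟨f, hfL⟩, hf⟩ := Module.finrank_pos_iff_exists_ne_zero.mp hpos
  exact ⟨f, fun h => hf (Subtype.ext h), hfL⟩

/-- A nonzero function in `L(D + m vinf)`, `m` minimal. -/
def minFun (D : Divisor K F) : F := (exists_minFun vinf D).choose

theorem minFun_ne_zero (D : Divisor K F) : minFun vinf D ≠ 0 := (exists_minFun vinf D).choose_spec.1

theorem minFun_mem (D : Divisor K F) :
    minFun vinf D ∈ riemannRochSpace (D + minDegD vinf D • prim vinf) :=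
  (exists_minFun vinf D).choose_spec.2

/-- The minimal effective representative of the class of `D + m vinf`. -/
def minRepD (D : Divisor K F) : Divisor K F :=
  D + minDegD vinf D • prim vinf + divOf (minFun vinf D) (minFun_ne_zero vinf D)

theorem minRepD_apply (D : Divisor K F) (w : Place K F) :
    minRepD vinf D w = D w + minDegD vinf D * prim vinf w + w.ord (minFun vinf D) := by
  rw [minRepD, Finsupp.add_apply, add_nsmul_prim_apply, divOf_apply]

theorem minRepD_nonneg (D : Divisor K F) : 0 ≤ minRepD vinf D :=
  (mem_L_iff_nonneg (minFun_ne_zero vinf D)).mp (minFun_mem vinf D)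

theorem degree_minRepD (D : Divisor K F) :
    Divisor.degree (minRepD vinf D) = Divisor.degree D + minDegD vinf D := by
  rw [minRepD, map_add, map_add, degree_divOf, map_nsmul, degree_prim vinf (deg_eq_one vinf)]
  simp

theorem minRepD_eq {D : Divisor K F} (hD : Divisor.degree D ≤ 0) {f : F} (hf : f ≠ 0)
    (hfL : f ∈ riemannRochSpace (D + minDegD vinf D • prim vinf)) :
    minRepD vinf D = D + minDegD vinf D • prim vinf + divOf f hf := by
  rw [minRepD, divOf_eq_of_ell_eq_one (ell_minDegD vinf hD) (minFun_ne_zero vinf D) hf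
    (minFun_mem vinf D) hfL]

/-- The minimal representative does not contain `vinf`. -/
theorem minRepD_apply_infty {D : Divisor K F} (hD : Divisor.degree D = 0) :
    minRepD vinf D vinf = 0 := by
  rcases Nat.eq_zero_or_pos (minDegD vinf D) with h0 | hpos
  · have hdeg := degree_minRepD vinf D
    rw [h0, hD] at hdeg
    rw [eq_zero_of_nonneg_of_degree_eq_zero (minRepD_nonneg vinf D) (by simpa using hdeg)]
    rfl
  · by_contra hne
    have hnn : (0 : ℤ) ≤ minRepD vinf D vinf := by
      simpa using Finsupp.le_def.mp (minRepD_nonneg vinf D) vinf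
    have h1 : (1 : ℤ) ≤ minRepD vinf D vinf := by omega
    -- then `minFun ∈ L(D + (m - 1) vinf)`
    have hlt : minDegD vinf D - 1 < minDegD vinf D := by omega
    have hz := ell_eq_zero_of_lt_minDegD vinf hlt
    have hmem : minFun vinf D ∈ riemannRochSpace (D + (minDegD vinf D - 1) • prim vinf) := by
      rw [mem_L_iff_nonneg (minFun_ne_zero vinf D), Finsupp.le_def]
      intro w
      have hw : (0 : ℤ) ≤ minRepD vinf D w := by
        simpa using Finsupp.le_def.mp (minRepD_nonneg vinf D) w
      have hcast : ((minDegD vinf D - 1 : ℕ) : ℤ) = (minDegD vinf D : ℤ) - 1 := by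
        rw [Nat.cast_sub (by omega)]; simp
      rw [minRepD_apply] at hw h1
      rw [Finsupp.coe_zero, Pi.zero_apply, Finsupp.add_apply, add_nsmul_prim_apply, divOf_apply,
        hcast]
      by_cases hwv : w = vinf
      · subst hwv
        rw [prim_apply_self] at h1 ⊢
        linarith
      · rw [prim_apply_of_ne hwv] at hw ⊢
        linarith
    have hpos' : 0 < Module.finrank K (riemannRochSpace (D + (minDegD vinf D - 1) • prim vinf)) :=
      Module.finrank_pos_iff_exists_ne_zero.mpr
        ⟨⟨_, hmem⟩, fun h => minFun_ne_zero vinf D (congrArg Subtype.val h)⟩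
    have : ell (D + (minDegD vinf D - 1) • prim vinf) = 0 := hz
    unfold ell at this
    omega

/-- Linearly equivalent divisors have the same minimal degree. -/
theorem minDegD_add_divOf (D : Divisor K F) (h : F) (hh : h ≠ 0) :
    minDegD vinf (D + divOf h hh) = minDegD vinf D := by
  have key : ∀ m : ℕ, ell (D + divOf h hh + m • prim vinf) = ell (D + m • prim vinf) := by
    intro m
    rw [add_right_comm, ell_add_divOf]
  apply le_antisymm
  · apply minDegD_le
    rw [key]
    exact one_le_ell_minDegD vinf D
  · apply minDegD_le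
    rw [← key]
    exact one_le_ell_minDegD vinf (D + divOf h hh)

/-- Linearly equivalent divisors (of degree `0`) have the same minimal representative. -/
theorem minRepD_add_divOf {D : Divisor K F} (hD : Divisor.degree D ≤ 0) (h : F) (hh : h ≠ 0) :
    minRepD vinf (D + divOf h hh) = minRepD vinf D := by
  have hm := minDegD_add_divOf vinf D h hh
  set f := minFun vinf (D + divOf h hh) with hf_def
  have hf0 : f ≠ 0 := minFun_ne_zero vinf _
  have hfL := minFun_mem vinf (D + divOf h hh)
  have hhf : h * f ≠ 0 := mul_ne_zero hh hf0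
  have hmem : h * f ∈ riemannRochSpace (D + minDegD vinf D • prim vinf) := by
    rw [mem_L_iff_nonneg hhf, divOf_mul h f hh hf0]
    rw [mem_L_iff_nonneg hf0, hm] at hfL
    have : D + divOf h hh + minDegD vinf D • prim vinf + divOf f hf0
        = D + minDegD vinf D • prim vinf + (divOf h hh + divOf f hf0) := by abel
    rwa [this] at hfL
  rw [minRepD_eq vinf hD hhf hmem, minRepD, hm, divOf_mul h f hh hf0]
  abel

end MinRepD

/-! ### Semilinear automorphisms -/

section Semilinear

variable [FF1 K F] (g : SemilinearAut K F)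

omit [FF1 K F] in
theorem smul_ne_zero {f : F} (hf : f ≠ 0) : g • f ≠ 0 := by
  rw [SemilinearAut.smul_def]
  exact (map_ne_zero_iff _ (SemilinearAut.toRingAut g).injective).mpr hf

theorem smul_divOf (f : F) (hf : f ≠ 0) :
    g • divOf (K := K) f hf = divOf (g • f) (smul_ne_zero g hf) := by
  ext w
  rw [SemilinearAut.divisor_smul_apply, divOf_apply, divOf_apply]
  have h := SemilinearAut.ord_smul g (g⁻¹ • w) f
  rw [smul_inv_smul] at h
  exact h.symm

omit [FF1 K F] in
theorem smul_prim (v : Place K F) : g • prim v = prim (g • v) := by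
  rw [prim, prim, SemilinearAut.smul_single]

omit [FF1 K F] in
theorem smul_nonneg {D : Divisor K F} (h : 0 ≤ D) : 0 ≤ g • D := by
  rw [Finsupp.le_def] at h ⊢
  intro w
  rw [SemilinearAut.divisor_smul_apply]
  simpa using h (g⁻¹ • w)

theorem smul_mem_L {D : Divisor K F} {f : F} (hf : f ∈ riemannRochSpace D) :
    g • f ∈ riemannRochSpace (g • D) := by
  rcases eq_or_ne f 0 with rfl | hf0
  · rw [smul_zero]; exact Submodule.zero_mem _
  · rw [mem_L_iff_nonneg (smul_ne_zero g hf0), ← smul_divOf g f hf0, ← smul_add]
    exact smul_nonneg g ((mem_L_iff_nonneg hf0).mp hf)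

theorem smul_mem_L_iff {D : Divisor K F} {f : F} :
    g • f ∈ riemannRochSpace (g • D) ↔ f ∈ riemannRochSpace D := by
  refine ⟨fun h => ?_, smul_mem_L g⟩
  have := smul_mem_L g⁻¹ h
  rwa [inv_smul_smul, inv_smul_smul] at this

/-- The semilinear bijection `L(D) ≃ L(g D)`. -/
def smulL (D : Divisor K F) : riemannRochSpace D ≃+ riemannRochSpace (g • D) where
  toFun f := ⟨g • (f : F), smul_mem_L g f.2⟩
  invFun f := ⟨g⁻¹ • (f : F), by
    have := smul_mem_L g⁻¹ f.2
    rwa [inv_smul_smul] at this⟩
  left_inv f := Subtype.ext (inv_smul_smul g (f : F))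
  right_inv f := Subtype.ext (smul_inv_smul g (f : F))
  map_add' f f' := Subtype.ext (smul_add g (f : F) (f' : F))

theorem ell_smul (D : Divisor K F) : ell (g • D) = ell D := by
  have h := rank_eq_of_equiv_equiv (R := K) (R' := K) (SemilinearAut.baseAut g) (smulL g D)
    (SemilinearAut.baseAut g).bijective (fun c f => by
      apply Subtype.ext
      show g • (c • (f : F)) = SemilinearAut.baseAut g c • (g • (f : F))
      rw [Algebra.smul_def, Algebra.smul_def, smul_mul', SemilinearAut.smul_algebraMap])
  unfold ell Module.finrank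
  rw [h]

variable {vinf : Place K F} (hg : g • vinf = vinf)

include hg in
theorem minDegD_smul (D : Divisor K F) : minDegD vinf (g • D) = minDegD vinf D := by
  have key : ∀ m : ℕ, ell (g • D + m • prim vinf) = ell (D + m • prim vinf) := by
    intro m
    rw [← ell_smul g (D + m • prim vinf), smul_add, smul_comm g m (prim vinf), smul_prim, hg]
  apply le_antisymm
  · apply minDegD_le
    rw [key]
    exact one_le_ell_minDegD vinf D
  · apply minDegD_le
    rw [← key]
    exact one_le_ell_minDegD vinf (g • D)

include hg in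
/-- The minimal representative is equivariant. -/
theorem minRepD_smul {D : Divisor K F} (hD : Divisor.degree D ≤ 0) :
    minRepD vinf (g • D) = g • minRepD vinf D := by
  have hm := minDegD_smul g hg D
  have hD' : Divisor.degree (g • D) ≤ 0 := by rwa [SemilinearAut.degree_smul]
  have hf0 := minFun_ne_zero vinf D
  have hmem : g • minFun vinf D ∈ riemannRochSpace (g • D + minDegD vinf (g • D) • prim vinf) := by
    have := smul_mem_L g (minFun_mem vinf D)
    rwa [smul_add, smul_comm g (minDegD vinf D) (prim vinf), smul_prim, hg, ← hm] at this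
  rw [minRepD_eq vinf hD' (smul_ne_zero g hf0) hmem, minRepD, smul_add, smul_add,
    smul_comm g (minDegD vinf D) (prim vinf), smul_prim, hg, smul_divOf, hm]

end Semilinear

/-! ### Minimal representatives of classes in `Pic⁰` -/

section Pic0

variable [FF1 K F] (vinf : Place K F)

omit [FF1 K F] in
theorem mk_eq_mk_iff {D D' : Divisor.degZero (K := K) (F := F)} :
    Pic0.mk D = Pic0.mk D' ↔ (D' : Divisor K F) - D ∈ Divisor.principal (K := K) (F := F) := by
  unfold Pic0.mk
  rw [QuotientAddGroup.eq, AddSubgroup.mem_addSubgroupOf]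
  have : ((-D + D' : Divisor.degZero (K := K) (F := F)) : Divisor K F)
      = (D' : Divisor K F) - D := by
    rw [AddSubgroup.coe_add, AddSubgroup.coe_neg]; abel
  rw [this]

theorem mk_eq_mk_iff' {D D' : Divisor.degZero (K := K) (F := F)} :
    Pic0.mk D = Pic0.mk D' ↔
      ∃ (h : F) (hh : h ≠ 0), (D' : Divisor K F) = (D : Divisor K F) + divOf h hh := by
  rw [mk_eq_mk_iff, isPrincipal_iff]
  constructor
  · rintro ⟨h, hh, e⟩
    exact ⟨h, hh, by rw [← e]; abel⟩
  · rintro ⟨h, hh, e⟩
    exact ⟨h, hh, by rw [e]; abel⟩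

/-- A chosen representative of a class. -/
def repD (x : Pic0 K F) : Divisor.degZero (K := K) (F := F) := (Pic0.mk_surjective x).choose

omit [FF1 K F] in
theorem mk_repD (x : Pic0 K F) : Pic0.mk (repD x) = x := (Pic0.mk_surjective x).choose_spec

omit [FF1 K F] in
theorem degree_coe (D : Divisor.degZero (K := K) (F := F)) :
    Divisor.degree (D : Divisor K F) = 0 := D.2

/-- The least `m` such that `x + m v∞` contains an effective divisor. -/
def minDeg (x : Pic0 K F) : ℕ := minDegD vinf (repD x : Divisor K F)

/-- The effective divisor `E` of degree `minDeg x` with `x = [E - m v∞]`. -/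
def minRep (x : Pic0 K F) : Divisor K F := minRepD vinf (repD x : Divisor K F)

theorem minDeg_mk (D : Divisor.degZero (K := K) (F := F)) :
    minDeg vinf (Pic0.mk D) = minDegD vinf (D : Divisor K F) := by
  obtain ⟨h, hh, e⟩ := mk_eq_mk_iff'.mp (mk_repD (Pic0.mk D)).symm
  rw [minDeg, e, minDegD_add_divOf]

theorem minRep_mk (D : Divisor.degZero (K := K) (F := F)) :
    minRep vinf (Pic0.mk D) = minRepD vinf (D : Divisor K F) := by
  obtain ⟨h, hh, e⟩ := mk_eq_mk_iff'.mp (mk_repD (Pic0.mk D)).symm
  rw [minRep, e, minRepD_add_divOf vinf (le_of_eq (degree_coe D))]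

theorem minRep_nonneg (x : Pic0 K F) : 0 ≤ minRep vinf x := minRepD_nonneg vinf _

theorem degree_minRep (x : Pic0 K F) : Divisor.degree (minRep vinf x) = minDeg vinf x := by
  rw [minRep, degree_minRepD, degree_coe, zero_add, minDeg]

theorem minRep_apply_infty (x : Pic0 K F) : minRep vinf x vinf = 0 :=
  minRepD_apply_infty vinf (degree_coe _)

theorem minDeg_le_genus (x : Pic0 K F) : minDeg vinf x ≤ genusR K F :=
  minDegD_le_genus vinf (degree_coe _)

theorem ell_minRep (x : Pic0 K F) : ell (minRep vinf x) = 1 := by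
  rw [minRep, minRepD, ell_add_divOf]
  exact ell_minDegD vinf (le_of_eq (degree_coe _))

theorem degree_minRep_sub (x : Pic0 K F) :
    Divisor.degree (minRep vinf x - minDeg vinf x • prim vinf) = 0 := by
  rw [map_sub, degree_minRep, map_nsmul, degree_prim vinf (deg_eq_one vinf)]
  simp

/-- The divisor `E - m v∞` of degree zero representing `x`. -/
def minDiv (x : Pic0 K F) : Divisor.degZero (K := K) (F := F) :=
  ⟨minRep vinf x - minDeg vinf x • prim vinf, degree_minRep_sub vinf x⟩

theorem coe_minDiv (x : Pic0 K F) :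
    (minDiv vinf x : Divisor K F) = minRep vinf x - minDeg vinf x • prim vinf := rfl

/-- `x = [E - m v∞]`. -/
theorem mk_minDiv (x : Pic0 K F) : Pic0.mk (minDiv vinf x) = x := by
  conv_rhs => rw [← mk_repD x]
  rw [eq_comm, mk_eq_mk_iff']
  refine ⟨minFun vinf (repD x : Divisor K F), minFun_ne_zero vinf _, ?_⟩
  rw [coe_minDiv, minRep, minRepD, minDeg]
  abel

/-- Uniqueness: an effective divisor `E` of degree `minDeg x` with `x = [E - m v∞]` is the
minimal representative. -/
theorem eq_minRep {x : Pic0 K F} {E : Divisor K F} (hE : 0 ≤ E)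
    (hdeg : Divisor.degree (E - minDeg vinf x • prim vinf) = 0)
    (hx : Pic0.mk ⟨E - minDeg vinf x • prim vinf, hdeg⟩ = x) : E = minRep vinf x := by
  have h1 : Pic0.mk (repD x) = Pic0.mk ⟨E - minDeg vinf x • prim vinf, hdeg⟩ := by
    rw [mk_repD, hx]
  obtain ⟨h, hh, e⟩ := mk_eq_mk_iff'.mp h1
  have e' : E = (repD x : Divisor K F) + minDeg vinf x • prim vinf + divOf h hh := by
    have : E - minDeg vinf x • prim vinf = (repD x : Divisor K F) + divOf h hh := e
    rw [sub_eq_iff_eq_add] at this
    rw [this]; abel
  have hmem : h ∈ riemannRochSpace ((repD x : Divisor K F) + minDeg vinf x • prim vinf) := by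
    rw [mem_L_iff_nonneg hh, ← e']
    exact hE
  rw [minRep, minRepD_eq vinf (le_of_eq (degree_coe _)) hh hmem, e']
  rfl

/-- Any effective divisor `E` of degree `m` with `x = [E - m v∞]` has `m ≥ minDeg x`. -/
theorem minDeg_le_of_rep {x : Pic0 K F} {E : Divisor K F} {m : ℕ} (hE : 0 ≤ E)
    (hdeg : Divisor.degree (E - m • prim vinf) = 0)
    (hx : Pic0.mk ⟨E - m • prim vinf, hdeg⟩ = x) : minDeg vinf x ≤ m := by
  have h1 : Pic0.mk (repD x) = Pic0.mk ⟨E - m • prim vinf, hdeg⟩ := by
    rw [mk_repD, hx]
  obtain ⟨h, hh, e⟩ := mk_eq_mk_iff'.mp h1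
  have e' : E = (repD x : Divisor K F) + m • prim vinf + divOf h hh := by
    have : E - m • prim vinf = (repD x : Divisor K F) + divOf h hh := e
    rw [sub_eq_iff_eq_add] at this
    rw [this]; abel
  have hmem : h ∈ riemannRochSpace ((repD x : Divisor K F) + m • prim vinf) := by
    rw [mem_L_iff_nonneg hh, ← e']
    exact hE
  apply minDegD_le
  have hpos : 0 < Module.finrank K (riemannRochSpace ((repD x : Divisor K F) + m • prim vinf)) :=
    Module.finrank_pos_iff_exists_ne_zero.mpr ⟨⟨h, hmem⟩, fun h0 => hh (congrArg Subtype.val h0)⟩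
  exact hpos

/-! ### Equivariance and descent -/

variable {vinf}

theorem minDeg_smul (g : SemilinearAut K F) (hg : g • vinf = vinf) (x : Pic0 K F) :
    minDeg vinf (g • x) = minDeg vinf x := by
  obtain ⟨D, rfl⟩ := Pic0.mk_surjective x
  rw [SemilinearAut.pic0_smul_mk, minDeg_mk, minDeg_mk, SemilinearAut.coe_degZeroSMulHom,
    minDegD_smul g hg]

theorem minRep_smul (g : SemilinearAut K F) (hg : g • vinf = vinf) (x : Pic0 K F) :
    minRep vinf (g • x) = g • minRep vinf x := by
  obtain ⟨D, rfl⟩ := Pic0.mk_surjective x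
  rw [SemilinearAut.pic0_smul_mk, minRep_mk, minRep_mk, SemilinearAut.coe_degZeroSMulHom,
    minRepD_smul g hg (le_of_eq (degree_coe D))]

/-- **Descent**: the minimal representative of a class fixed by `g` is fixed by `g`. -/
theorem smul_minRep_eq (g : SemilinearAut K F) (hg : g • vinf = vinf) {x : Pic0 K F}
    (hx : g • x = x) : g • minRep vinf x = minRep vinf x := by
  rw [← minRep_smul g hg, hx]

theorem smul_minDiv_eq (g : SemilinearAut K F) (hg : g • vinf = vinf) {x : Pic0 K F}
    (hx : g • x = x) : g • (minDiv vinf x : Divisor K F) = minDiv vinf x := by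
  rw [coe_minDiv, smul_sub, smul_minRep_eq g hg hx, smul_comm g (minDeg vinf x) (prim vinf),
    smul_prim, hg]

/-- A class is determined by its minimal representative. -/
theorem minRep_injective : Function.Injective (minRep (K := K) (F := F) vinf) := by
  intro x y h
  have hd : minDeg vinf x = minDeg vinf y := by
    have h1 := degree_minRep vinf x
    have h2 := degree_minRep vinf y
    rw [h] at h1
    exact_mod_cast h1.symm.trans h2
  rw [← mk_minDiv vinf x, ← mk_minDiv vinf y]
  congr 1
  apply Subtype.ext
  rw [coe_minDiv, coe_minDiv, h, hd]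

end Pic0

end Fermat.Agent.S17.H680
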