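import Fermat.Agent.S17.H680.DescentRR
import Fermat.Agent.S17.H680.Cusp

/-!
# S17 / BASE-2 (helper680): rational structures for `J₀(N)`

* `JZero.isInvariant_nsmul_cusp` : `k · ∞` is a Galois-invariant divisor;
* `JZero.isInvariant_minRep`     : the minimal representative of a rational class is invariant;
* `JZero.exists_fixed_basis_cusp`: `L(k ∞)` has a basis of Galois-fixed functions;
* `JZero.exists_rational_coordinate` : a Galois-fixed non-constant function with poles only at `∞`.
-/

set_option autoImplicit false

noncomputable section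

open AlgebraicCurve ModularCurve

namespace Fermat.Agent.S17.H680

open Fermat.Agent.Lib.RR Fermat.Agent.S17.H77

variable (N : ℕ) [NeZero N]

theorem JZero.isInvariant_nsmul_cusp (k : ℕ) :
    IsInvariant (modularFunctionFieldFull N) (k • prim (JZero.cusp N)) := by
  intro σ
  rw [smul_comm, smul_prim, JZero.galois_smul_cusp]

theorem JZero.isInvariant_minRep {x : JZero N}
    (hx : x ∈ FixedPoints.addSubgroup (AlgebraicClosure ℚ ≃ₐ[ℚ] AlgebraicClosure ℚ) (JZero N)) :
    IsInvariant (modularFunctionFieldFull N) (minRep (JZero.cusp N) x) :=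
  fun σ => JZero.galois_smul_minRep N hx σ

/-- `L(k ∞)` has a basis of Galois-fixed functions (a `ℚ`-structure). -/
theorem JZero.exists_fixed_basis_cusp (k : ℕ) :
    ∃ b : Fin (ell (k • prim (JZero.cusp N))) → modularFunctionFieldBar N,
      (∀ i, b i ∈ riemannRochSpace (k • prim (JZero.cusp N))) ∧
      (∀ i, IsFixed (modularFunctionFieldFull N) (b i)) ∧
      LinearIndependent (AlgebraicClosure ℚ) b ∧
      Submodule.span (AlgebraicClosure ℚ) (Set.range b)
        = riemannRochSpace (k • prim (JZero.cusp N)) ∧
      Submodule.span ℚ (Set.range b)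
        = fixedPart (modularFunctionFieldFull N) (riemannRochSpace (k • prim (JZero.cusp N))) :=
  exists_fixed_basis_L _ (JZero.isInvariant_nsmul_cusp N k)

theorem JZero.two_le_ell_cusp :
    2 ≤ ell ((genusR (AlgebraicClosure ℚ) (modularFunctionFieldBar N) + 1) •
      prim (JZero.cusp N)) := by
  have h := riemann_inequality
    ((genusR (AlgebraicClosure ℚ) (modularFunctionFieldBar N) + 1) • prim (JZero.cusp N))
  rw [map_nsmul, degree_prim _ (deg_eq_one _), nsmul_eq_mul, mul_one] at h
  have : (2 : ℤ) ≤ ell ((genusR (AlgebraicClosure ℚ) (modularFunctionFieldBar N) + 1) •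
      prim (JZero.cusp N)) := by
    push_cast at h
    linarith
  exact_mod_cast this

/-- A Galois-fixed (i.e. rational) non-constant function whose only pole is the cusp `∞`, of
pole order at most `g + 1`. -/
theorem JZero.exists_rational_coordinate :
    ∃ t : modularFunctionFieldBar N,
      t ∈ riemannRochSpace ((genusR (AlgebraicClosure ℚ) (modularFunctionFieldBar N) + 1) •
        prim (JZero.cusp N)) ∧
      IsFixed (modularFunctionFieldFull N) t ∧
      t ∉ Set.range (algebraMap (AlgebraicClosure ℚ) (modularFunctionFieldBar N)) :=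
  exists_fixed_nonconstant _ (JZero.isInvariant_nsmul_cusp N _) (JZero.two_le_ell_cusp N)

end Fermat.Agent.S17.H680
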