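import Fermat.Agent.S17.H680.Generic
import Fermat.Agent.S37.H100.FibreCharpoly
import Fermat.Agent.Lib.RR.H383.Fundamental

/-!
# S17 / piece GEN, part G4 (helper680): finitely many branch values

`K` algebraically closed of characteristic zero, `F/K` a function field (`FF1 K F`).
A non-constant function `s ∈ F` has only finitely many branch values:
`{c : K | ∃ P, 2 ≤ ord_P (s - c)}` is finite (`finiteBranch`).

Proof: `F = K(s)(u)` with `u` primitive; the characteristic polynomial `χ` of `u` over `K(s)` is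
separable, `a χ + b χ' = 1`.  For `c` outside the finite set of values of `s` at the poles of
`u` and of the coefficients of `a, b`, the fibre formula (`S37.H100.fibre_charpoly`) shows that
`∏_{w | c} (X - u(w)) ^ e(w)` is separable, whence `e(w) = 1`; and `e(w) = ord_w (s - c)`.
-/

set_option autoImplicit false

noncomputable section

open AlgebraicCurve Polynomial IntermediateField

namespace Fermat.Agent.S17.H680

open Fermat.Agent.Lib.RR Fermat.Agent.Lib.FF398 Fermat.Agent.S37.H100

section Local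

variable {K E F : Type*} [Field K] [Field E] [Field F] [Algebra K E] [Algebra K F]
  [Algebra E F] [IsScalarTower K E F] [FiniteDimensional E F] [CharZero E] [IsAlgClosed K]

/-- **Unramifiedness from separability**: if the characteristic polynomial `χ` of `u` over `E`
satisfies `a χ + b χ' = 1` with `a, b` regular at `v`, and `u` is regular at the places over
`v`, then all places over `v` are unramified. -/
theorem ramificationIndex_eq_one_of_bezout (hdeg' : ∀ w : Place K F, w.deg = 1)
    (v : Place K E) (hv : v.deg = 1)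
    (u : F) (hu : ∀ w : Place K F, w.restrict E = v → 0 ≤ w.ord u)
    (a b : E[X])
    (hab : a * (LinearMap.mulLeft E u).charpoly
      + b * derivative (LinearMap.mulLeft E u).charpoly = 1)
    (ha : ∀ i, 0 ≤ v.ord (a.coeff i)) (hb : ∀ i, 0 ≤ v.ord (b.coeff i))
    (w₀ : Place K F) (hw₀ : w₀.restrict E = v) : w₀.ramificationIndex E = 1 := by
  classical
  have hint : Algebra.IsIntegral E F := Algebra.IsIntegral.of_finite E F
  set fib : Finset (Place K F) := (finite_fibre (F' := F) v).toFinset with hfib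
  have hs : ∀ w, w ∈ fib ↔ w.restrict E = v := fun w => by
    rw [hfib, Set.Finite.mem_toFinset]
    rfl
  -- the values of `u`
  have hval : ∀ w : Place K F, ∃ c : K, w.restrict E = v →
      (u - algebraMap K F c = 0 ∨ 0 < w.ord (u - algebraMap K F c)) := by
    intro w
    by_cases hw : w.restrict E = v
    · obtain ⟨c, hc⟩ := exists_const_sub w (hdeg' w) (hu w hw)
      exact ⟨c, fun _ => hc⟩
    · exact ⟨0, fun h => absurd h hw⟩
  choose aval haval using hval
  obtain ⟨P, -, hPmap, hPred⟩ := fibre_charpoly v hv hdeg' fib hs u aval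
    (fun w hw => haval w ((hs w).mp hw))
  -- lift `a, b` to `O_v[X]`
  have hlift : ∀ p : E[X], (∀ i, 0 ≤ v.ord (p.coeff i)) →
      ∃ q : Polynomial v.toValuationSubring, q.map (algebraMap v.toValuationSubring E) = p := by
    intro p hp
    rw [← Polynomial.mem_lifts, Polynomial.lifts_iff_coeff_lifts]
    intro n
    exact ⟨⟨p.coeff n, mem_of_ord_nonneg v (hp n)⟩, rfl⟩
  obtain ⟨A, hA⟩ := hlift a ha
  obtain ⟨B, hB⟩ := hlift b hb
  have hinj : Function.Injective (algebraMap v.toValuationSubring E) := fun x y h =>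
    Subtype.ext h
  have hAB : A * P + B * derivative P = 1 := by
    apply Polynomial.map_injective _ hinj
    rw [Polynomial.map_add, Polynomial.map_mul, Polynomial.map_mul, ← Polynomial.derivative_map,
      hA, hB, hPmap, Polynomial.map_one]
    exact hab
  have hsep : (P.map (evPlace v hv)).Separable := by
    refine ⟨A.map (evPlace v hv), B.map (evPlace v hv), ?_⟩
    rw [Polynomial.derivative_map, ← Polynomial.map_mul, ← Polynomial.map_mul,
      ← Polynomial.map_add, hAB, Polynomial.map_one]
  rw [hPred] at hsep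
  have hmem : w₀ ∈ fib := (hs w₀).mpr hw₀
  have hpos : 0 < w₀.ramificationIndex E := w₀.ramificationIndex_pos (F := E)
  by_contra hne
  have h2 : 2 ≤ w₀.ramificationIndex E := by omega
  have hdvd : (X - C (aval w₀)) * (X - C (aval w₀)) ∣
      ∏ w ∈ fib, (X - C (aval w)) ^ w.ramificationIndex E := by
    refine dvd_trans ?_ (Finset.dvd_prod_of_mem _ hmem)
    rw [← pow_two]
    exact pow_dvd_pow _ h2
  exact Polynomial.not_isUnit_X_sub_C (aval w₀) (hsep.squarefree _ hdvd)

end Local

section Global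

variable {K F : Type*} [Field K] [Field F] [Algebra K F]

/-- The ramification index over `K(s)` at a zero of `s - c` is the order of `s - c`. -/
theorem ramificationIndex_adjoin_eq_ord (s : F) [FiniteDimensional K⟮s⟯ F] (c : K)
    (w : Place K F) (hw : 0 < w.ord (s - algebraMap K F c)) :
    (w.ramificationIndex K⟮s⟯ : ℤ) = w.ord (s - algebraMap K F c) := by
  have hint : Algebra.IsIntegral K⟮s⟯ F := Algebra.IsIntegral.of_finite K⟮s⟯ F
  set x : F := s - algebraMap K F c with hx
  have hxmem : x ∈ K⟮s⟯ :=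
    sub_mem (mem_adjoin_simple_self K s) (K⟮s⟯.algebraMap_mem c)
  have hx0 : x ≠ 0 := ne_zero_of_ord_ne_zero w hw.ne'
  have hxE0 : (⟨x, hxmem⟩ : K⟮s⟯) ≠ 0 := fun h => hx0 (congrArg Subtype.val h)
  apply le_antisymm
  · exact w.ramificationIndex_le_ord (F := K⟮s⟯) (f := ⟨x, hxmem⟩) hxE0 hw
  · obtain ⟨f, hf0, hfe⟩ := w.exists_ord_eq_ramificationIndex (F := K⟮s⟯)
    have hle : K⟮s⟯ ≤ K⟮x⟯ := by
      rw [adjoin_simple_le_iff]
      have h1 : s = x + algebraMap K F c := by rw [hx]; ring
      rw [h1]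
      exact add_mem (mem_adjoin_simple_self K x) (K⟮x⟯.algebraMap_mem c)
    have hfmem : (f : F) ∈ K⟮x⟯ := hle f.2
    have hf0' : (⟨(f : F), hfmem⟩ : K⟮x⟯) ≠ 0 := by
      intro h
      have h' : (f : F) = 0 := congrArg Subtype.val h
      exact hf0 (ZeroMemClass.coe_eq_zero.mp h')
    obtain ⟨n, hn⟩ := exists_ord_eq_mul (⟨(f : F), hfmem⟩ : K⟮x⟯) hf0'
    have h1 := hn w hw
    have h2 : w.ord (f : F) = (w.ramificationIndex K⟮s⟯ : ℤ) := hfe
    have hpos : (0 : ℤ) < (w.ramificationIndex K⟮s⟯ : ℤ) := by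
      have := w.ramificationIndex_pos (F := K⟮s⟯)
      exact_mod_cast this
    have h3 : (w.ramificationIndex K⟮s⟯ : ℤ) = n * w.ord x := by rw [← h2]; exact h1
    have hn1 : 1 ≤ n := by
      by_contra hcon
      have hn0 : n ≤ 0 := by omega
      have : n * w.ord x ≤ 0 := mul_nonpos_of_nonpos_of_nonneg hn0 hw.le
      omega
    rw [h3]
    nlinarith

/-- The set of values of `s` at a finite set of places is finite. -/
theorem finite_values (s : F) {T : Set (Place K F)} (hT : T.Finite) :
    {c : K | ∃ w ∈ T, 0 < w.ord (s - algebraMap K F c)}.Finite := by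
  have hsub : {c : K | ∃ w ∈ T, 0 < w.ord (s - algebraMap K F c)} ⊆
      ⋃ w ∈ T, {c : K | 0 < w.ord (s - algebraMap K F c)} := by
    rintro c ⟨w, hw, hc⟩
    exact Set.mem_biUnion hw hc
  refine Set.Finite.subset (Set.Finite.biUnion hT fun w _ => ?_) hsub
  apply Set.Subsingleton.finite
  intro c hc c' hc'
  exact const_unique_of_ord_pos w s hc hc'

variable [FF1 K F]

/-- A function has finitely many poles. -/
theorem finite_poles (y : F) : {w : Place K F | w.ord y < 0}.Finite := by
  rcases eq_or_ne y 0 with rfl | hy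
  · convert Set.finite_empty
    ext w
    simp
  · apply Set.Finite.subset (divOf (K := K) y hy).support.finite_toSet
    intro w hw
    rw [Finset.mem_coe, Finsupp.mem_support_iff, divOf_apply]
    exact (show w.ord y < 0 from hw).ne

variable [IsAlgClosed K] [CharZero K]

/-- **G4**: a non-constant function has only finitely many branch values. -/
theorem finiteBranch : FiniteBranch K F := by
  classical
  intro s hs
  have hs' : s ∉ (algebraMap K F).range := fun h => hs (RingHom.mem_range.mp h)
  have ht : Transcendental K s := Fermat.Agent.S24.FF.transcendental_of_not_mem_range hs'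
  obtain ⟨x₀, hx₀, hfin₀⟩ := FF1.exists_finite (K := K) (F := F)
  have hfin : FiniteDimensional K⟮s⟯ F :=
    Fermat.Agent.S24.FF.finiteDimensional_adjoin_of_transcendental hx₀ ht
  have hchar : CharZero K⟮s⟯ := charZero_of_injective_algebraMap (algebraMap K K⟮s⟯).injective
  have hdeg' : ∀ w : Place K F, w.deg = 1 := fun w => deg_eq_one w
  -- primitive element
  let pb : PowerBasis K⟮s⟯ F := Field.powerBasisOfFiniteOfSeparable K⟮s⟯ F
  set u : F := pb.gen with hu
  have hχ : (LinearMap.mulLeft K⟮s⟯ u).charpoly = minpoly K⟮s⟯ u := by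
    rw [← charpoly_leftMulMatrix pb, Algebra.leftMulMatrix_apply,
      LinearMap.charpoly_toMatrix]
    rfl
  have hsep : (LinearMap.mulLeft K⟮s⟯ u).charpoly.Separable := by
    rw [hχ]
    exact Algebra.IsSeparable.isSeparable K⟮s⟯ u
  obtain ⟨a, b, hab⟩ := hsep
  -- the bad places
  set T : Set (Place K F) := {w | w.ord u < 0} ∪
    (⋃ i ∈ a.support, {w : Place K F | w.ord ((a.coeff i : K⟮s⟯) : F) < 0}) ∪
    (⋃ i ∈ b.support, {w : Place K F | w.ord ((b.coeff i : K⟮s⟯) : F) < 0}) with hT
  have hTfin : T.Finite := by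
    refine Set.Finite.union (Set.Finite.union (finite_poles u) ?_) ?_
    · exact Set.Finite.biUnion a.support.finite_toSet fun i _ => finite_poles _
    · exact Set.Finite.biUnion b.support.finite_toSet fun i _ => finite_poles _
  refine Set.Finite.subset (finite_values s hTfin) ?_
  rintro c ⟨w₀, hw₀⟩
  by_contra hcB
  have hgood : ∀ w : Place K F, 0 < w.ord (s - algebraMap K F c) → w ∉ T := fun w hw hwT =>
    hcB ⟨w, hwT, hw⟩
  -- regularity at places over `c`
  have hreg_u : ∀ w : Place K F, 0 < w.ord (s - algebraMap K F c) → 0 ≤ w.ord u := by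
    intro w hw
    by_contra hcon
    exact hgood w hw (Or.inl (Or.inl (by
      show w.ord u < 0
      omega)))
  have hreg_coeff : ∀ (p : K⟮s⟯[X]), (p = a ∨ p = b) → ∀ (w : Place K F),
      0 < w.ord (s - algebraMap K F c) → ∀ i, 0 ≤ w.ord ((p.coeff i : K⟮s⟯) : F) := by
    intro p hp w hw i
    by_cases hi : i ∈ p.support
    · by_contra hcon
      have hlt : w.ord ((p.coeff i : K⟮s⟯) : F) < 0 := by omega
      rcases hp with rfl | rfl
      · exact hgood w hw (Or.inl (Or.inr (Set.mem_biUnion (Finset.mem_coe.mpr hi) hlt)))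
      · exact hgood w hw (Or.inr (Set.mem_biUnion (Finset.mem_coe.mpr hi) hlt))
    · rw [Polynomial.notMem_support_iff.mp hi]
      simp
  -- the place of `K(s)` below `w₀`
  set v : Place K K⟮s⟯ := w₀.restrict K⟮s⟯ with hv
  have hvdeg : v.deg = 1 := deg_restrict_eq_one hdeg' w₀
  have hint : Algebra.IsIntegral K⟮s⟯ F := Algebra.IsIntegral.of_finite K⟮s⟯ F
  set xE : K⟮s⟯ := ⟨s, mem_adjoin_simple_self K s⟩ - algebraMap K K⟮s⟯ c with hxE
  have hxEF : algebraMap K⟮s⟯ F xE = s - algebraMap K F c := by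
    rw [hxE, map_sub, ← IsScalarTower.algebraMap_apply]
    rfl
  have hw₀pos : 0 < w₀.ord (s - algebraMap K F c) := by omega
  have hvpos : 0 < v.ord xE := by
    have h1 : w₀.ord (algebraMap K⟮s⟯ F xE) = (w₀.ramificationIndex K⟮s⟯ : ℤ) * v.ord xE :=
      w₀.ord_restrict (F := K⟮s⟯) xE
    rw [hxEF] at h1
    have hpos : (0 : ℤ) < (w₀.ramificationIndex K⟮s⟯ : ℤ) := by
      have := w₀.ramificationIndex_pos (F := K⟮s⟯)
      exact_mod_cast this
    by_contra hcon
    have : (w₀.ramificationIndex K⟮s⟯ : ℤ) * v.ord xE ≤ 0 :=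
      mul_nonpos_of_nonneg_of_nonpos hpos.le (by omega)
    omega
  have hover : ∀ w : Place K F, w.restrict K⟮s⟯ = v → 0 < w.ord (s - algebraMap K F c) := by
    intro w hw
    have h1 := w.ord_restrict (F := K⟮s⟯) xE
    rw [hxEF, hw] at h1
    rw [h1]
    have hpos : (0 : ℤ) < (w.ramificationIndex K⟮s⟯ : ℤ) := by
      have := w.ramificationIndex_pos (F := K⟮s⟯)
      exact_mod_cast this
    exact mul_pos hpos hvpos
  have hvcoeff : ∀ (p : K⟮s⟯[X]), (p = a ∨ p = b) → ∀ i, 0 ≤ v.ord (p.coeff i) := by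
    intro p hp i
    have h1 : w₀.ord (algebraMap K⟮s⟯ F (p.coeff i))
        = (w₀.ramificationIndex K⟮s⟯ : ℤ) * v.ord (p.coeff i) :=
      w₀.ord_restrict (F := K⟮s⟯) (p.coeff i)
    have h2 : 0 ≤ w₀.ord (algebraMap K⟮s⟯ F (p.coeff i)) := hreg_coeff p hp w₀ hw₀pos i
    have hpos : (0 : ℤ) < (w₀.ramificationIndex K⟮s⟯ : ℤ) := by
      have := w₀.ramificationIndex_pos (F := K⟮s⟯)
      exact_mod_cast this
    rw [h1] at h2
    by_contra hcon
    have : (w₀.ramificationIndex K⟮s⟯ : ℤ) * v.ord (p.coeff i) < 0 :=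
      mul_neg_of_pos_of_neg hpos (by omega)
    omega
  have he1 : w₀.ramificationIndex K⟮s⟯ = 1 :=
    ramificationIndex_eq_one_of_bezout hdeg' v hvdeg u
      (fun w hw => hreg_u w (hover w hw)) a b hab
      (hvcoeff a (Or.inl rfl)) (hvcoeff b (Or.inr rfl)) w₀ rfl
  have he2 := ramificationIndex_adjoin_eq_ord s c w₀ hw₀pos
  rw [he1] at he2
  have : w₀.ord (s - algebraMap K F c) = 1 := by
    rw [← he2]
    norm_num
  omega

end Global

end Fermat.Agent.S17.H680
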