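import Fermat.Agent.S17.H680.GaloisDescent
import Fermat.Agent.S17.H680.Descent
import Fermat.Agent.S17.H77.StabAbstract

/-!
# S17 / BASE-2 (helper680): Galois descent of Riemann–Roch spaces

`F = ℚ̄ · F₀ ⊆ ℚ̄((q))` with the coefficientwise Galois action.  For a Galois-invariant divisor
`D₀`, the space `L(D₀)` has a `ℚ̄`-basis of Galois-fixed functions (`exists_fixed_basis`); the
`ℚ`-space of fixed functions in `L(D₀)` has dimension `ℓ(D₀)` (`finrank_fixedL`).
-/

set_option autoImplicit false

noncomputable section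

open AlgebraicCurve ModularCurve

namespace Fermat.Agent.S17.H680

open Fermat.Agent.Lib.RR Fermat.Agent.S17.H77

variable (F₀ : IntermediateField ℚ (LaurentSeries ℚ))

theorem normal_Qb : @Normal ℚ Qb _ _ (inferInstance : Algebra ℚ Qb) := by
  have h : (inferInstance : Algebra ℚ Qb) =
      (AlgebraicClosure.instAlgebra ℚ : Algebra ℚ (AlgebraicClosure ℚ)) := Subsingleton.elim _ _
  rw [h]
  infer_instance

theorem isGalois_Qb : @IsGalois ℚ _ Qb _ (inferInstance : Algebra ℚ Qb) := by
  have h : (inferInstance : Algebra ℚ Qb) =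
      (AlgebraicClosure.instAlgebra ℚ : Algebra ℚ (AlgebraicClosure ℚ)) := Subsingleton.elim _ _
  rw [h]
  infer_instance

/-- The Galois action on the function field, as a `DistribMulAction` (not an instance). -/
@[reducible] def galoisAction : DistribMulAction GQ (laurentBaseChange Qb F₀) :=
  DistribMulAction.compHom (laurentBaseChange Qb F₀) (arithmeticGalois F₀)

theorem galoisAction_smul (σ : GQ) (f : laurentBaseChange Qb F₀) :
    (letI := galoisAction F₀; σ • f) = arithmeticGalois F₀ σ • f := rfl

theorem arithmeticGalois_smul_smul (σ : GQ) (a : Qb) (f : laurentBaseChange Qb F₀) :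
    arithmeticGalois F₀ σ • (a • f) = σ a • (arithmeticGalois F₀ σ • f) := by
  rw [Algebra.smul_def, Algebra.smul_def, smul_mul', SemilinearAut.smul_algebraMap]
  rfl

/-- The set of Galois-fixed functions. -/
def IsFixed (f : laurentBaseChange Qb F₀) : Prop :=
  ∀ σ : GQ, arithmeticGalois F₀ σ • f = f

/-- **Descent, spanning**: a Galois-stable `ℚ̄`-subspace of `F` is spanned by its fixed elements. -/
theorem span_fixed_eq (V : Submodule Qb (laurentBaseChange Qb F₀))
    (hV : ∀ σ : GQ, ∀ f ∈ V, arithmeticGalois F₀ σ • f ∈ V) :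
    Submodule.span Qb {f | f ∈ V ∧ IsFixed F₀ f} = V := by
  apply le_antisymm
  · rw [Submodule.span_le]
    exact fun f hf => hf.1
  · intro f hf
    obtain ⟨K, hK, hfix⟩ := exists_fixing_field' F₀ f
    let := galoisAction F₀
    have := normal_Qb
    exact mem_span_fixed (k := ℚ) (L := Qb) (M := laurentBaseChange Qb F₀)
      (fun σ a m => arithmeticGalois_smul_smul F₀ σ a m) V hV hf K hfix

/-- **Descent, independence**: `ℚ`-independent fixed functions are `ℚ̄`-independent. -/
theorem linearIndependent_of_isFixed {ι : Type*} (w : ι → laurentBaseChange Qb F₀)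
    (hw : ∀ i, IsFixed F₀ (w i)) (hli : LinearIndependent ℚ w) : LinearIndependent Qb w := by
  let := galoisAction F₀
  have := isGalois_Qb
  exact linearIndependent_of_fixed (k := ℚ) (L := Qb) (M := laurentBaseChange Qb F₀)
    (fun σ a m => arithmeticGalois_smul_smul F₀ σ a m) w (fun σ i => hw i σ) hli

/-- The `ℚ`-subspace of Galois-fixed elements of a `ℚ̄`-subspace. -/
def fixedPart (V : Submodule Qb (laurentBaseChange Qb F₀)) :
    Submodule ℚ (laurentBaseChange Qb F₀) where
  carrier := {f | f ∈ V ∧ IsFixed F₀ f}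
  zero_mem' := ⟨V.zero_mem, fun σ => smul_zero _⟩
  add_mem' := fun {f g} hf hg => ⟨V.add_mem hf.1 hg.1, fun σ => by
    rw [smul_add, hf.2 σ, hg.2 σ]⟩
  smul_mem' := fun c f hf => by
    refine ⟨?_, fun σ => ?_⟩
    · rw [← algebraMap_smul Qb c f]
      exact V.smul_mem _ hf.1
    · rw [← algebraMap_smul Qb c f, arithmeticGalois_smul_smul, hf.2 σ, AlgEquiv.commutes]

theorem mem_fixedPart {V : Submodule Qb (laurentBaseChange Qb F₀)}
    {f : laurentBaseChange Qb F₀} : f ∈ fixedPart F₀ V ↔ f ∈ V ∧ IsFixed F₀ f := Iff.rfl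

/-- A Galois-stable finite-dimensional subspace has a basis of fixed elements; the family is at
the same time a `ℚ`-basis of the fixed part. -/
theorem exists_fixed_basis (V : Submodule Qb (laurentBaseChange Qb F₀))
    [Module.Finite Qb V]
    (hV : ∀ σ : GQ, ∀ f ∈ V, arithmeticGalois F₀ σ • f ∈ V) :
    ∃ b : Fin (Module.finrank Qb V) → laurentBaseChange Qb F₀,
      (∀ i, b i ∈ V) ∧ (∀ i, IsFixed F₀ (b i)) ∧ LinearIndependent Qb b ∧
      Submodule.span Qb (Set.range b) = V ∧
      Submodule.span ℚ (Set.range b) = fixedPart F₀ V := by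
  classical
  -- a `ℚ`-basis of the fixed part
  set W := fixedPart F₀ V with hW
  let B := Module.Free.chooseBasis ℚ W
  have hBfix : ∀ i, IsFixed F₀ ((B i : W) : laurentBaseChange Qb F₀) := fun i => (B i).2.2
  have hBV : ∀ i, ((B i : W) : laurentBaseChange Qb F₀) ∈ V := fun i => (B i).2.1
  have hliQ : LinearIndependent ℚ fun i => ((B i : W) : laurentBaseChange Qb F₀) := by
    have := B.linearIndependent
    exact this.map' (Submodule.subtype W) (Submodule.ker_subtype W)
  have hli : LinearIndependent Qb fun i => ((B i : W) : laurentBaseChange Qb F₀) :=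
    linearIndependent_of_isFixed F₀ _ hBfix hliQ
  have hspanQ : Submodule.span ℚ (Set.range fun i => ((B i : W) : laurentBaseChange Qb F₀))
      = W := by
    have h1 := B.span_eq
    have h2 := congrArg (Submodule.map (Submodule.subtype W)) h1
    rw [Submodule.map_span, Submodule.map_top, Submodule.range_subtype, ← Set.range_comp] at h2
    exact h2
  have hspan : Submodule.span Qb (Set.range fun i => ((B i : W) : laurentBaseChange Qb F₀))
      = V := by
    apply le_antisymm
    · rw [Submodule.span_le]
      rintro _ ⟨i, rfl⟩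
      exact hBV i
    · rw [← span_fixed_eq F₀ V hV, Submodule.span_le]
      intro f hf
      have hfW : f ∈ W := hf
      rw [← hspanQ] at hfW
      exact Submodule.span_le_restrictScalars ℚ Qb _ hfW
  -- the index type has the right cardinality
  have hfin : Finite (Module.Free.ChooseBasisIndex ℚ W) := by
    have hliV : LinearIndependent Qb fun i => (⟨_, hBV i⟩ : V) := by
      refine LinearIndependent.of_comp (Submodule.subtype V) ?_
      exact hli
    exact hliV.finite
  let := Fintype.ofFinite (Module.Free.ChooseBasisIndex ℚ W)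
  have hcard : Fintype.card (Module.Free.ChooseBasisIndex ℚ W) = Module.finrank Qb V := by
    have hliV : LinearIndependent Qb fun i => (⟨_, hBV i⟩ : V) := by
      refine LinearIndependent.of_comp (Submodule.subtype V) ?_
      exact hli
    have hspanV : Submodule.span Qb (Set.range fun i => (⟨_, hBV i⟩ : V)) = ⊤ := by
      apply Submodule.map_injective_of_injective (Submodule.injective_subtype V)
      rw [Submodule.map_span, Submodule.map_top, Submodule.range_subtype, ← Set.range_comp]
      exact hspan
    have bV : Module.Basis (Module.Free.ChooseBasisIndex ℚ W) Qb V :=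
      Module.Basis.mk hliV (le_of_eq hspanV.symm)
    rw [Module.finrank_eq_card_basis bV]
  let e : Fin (Module.finrank Qb V) ≃ Module.Free.ChooseBasisIndex ℚ W :=
    (Fintype.equivFinOfCardEq hcard).symm
  refine ⟨fun i => ((B (e i) : W) : laurentBaseChange Qb F₀), fun i => hBV _, fun i => hBfix _,
    hli.comp _ e.injective, ?_, ?_⟩
  · exact (congrArg (Submodule.span Qb)
      (e.surjective.range_comp fun i => ((B i : W) : laurentBaseChange Qb F₀))).trans hspan
  · exact (congrArg (Submodule.span ℚ)
      (e.surjective.range_comp fun i => ((B i : W) : laurentBaseChange Qb F₀))).trans hspanQ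

/-! ### Riemann–Roch spaces of invariant divisors -/

section RR

variable [FF1 Qb (laurentBaseChange Qb F₀)]

/-- A Galois-invariant divisor. -/
def IsInvariant (D : Divisor Qb (laurentBaseChange Qb F₀)) : Prop :=
  ∀ σ : GQ, arithmeticGalois F₀ σ • D = D

theorem smul_mem_L_of_isInvariant {D : Divisor Qb (laurentBaseChange Qb F₀)}
    (hD : IsInvariant F₀ D) (σ : GQ) {f : laurentBaseChange Qb F₀}
    (hf : f ∈ riemannRochSpace D) : arithmeticGalois F₀ σ • f ∈ riemannRochSpace D := by
  have := smul_mem_L (arithmeticGalois F₀ σ) hf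
  rwa [hD σ] at this

/-- **BASE-2**: for a Galois-invariant divisor `D`, the space `L(D)` has a basis of Galois-fixed
functions, which is also a `ℚ`-basis of the fixed part of `L(D)`. -/
theorem exists_fixed_basis_L {D : Divisor Qb (laurentBaseChange Qb F₀)}
    (hD : IsInvariant F₀ D) :
    ∃ b : Fin (ell D) → laurentBaseChange Qb F₀,
      (∀ i, b i ∈ riemannRochSpace D) ∧ (∀ i, IsFixed F₀ (b i)) ∧ LinearIndependent Qb b ∧
      Submodule.span Qb (Set.range b) = riemannRochSpace D ∧
      Submodule.span ℚ (Set.range b) = fixedPart F₀ (riemannRochSpace D) :=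
  exists_fixed_basis F₀ (riemannRochSpace D) fun σ _ hf => smul_mem_L_of_isInvariant F₀ hD σ hf

/-- The `ℚ`-dimension of the space of Galois-fixed functions in `L(D)` is `ℓ(D)`. -/
theorem finrank_fixedPart_L {D : Divisor Qb (laurentBaseChange Qb F₀)}
    (hD : IsInvariant F₀ D) :
    Module.finrank ℚ (fixedPart F₀ (riemannRochSpace D)) = ell D := by
  classical
  obtain ⟨b, hbL, hbfix, hli, hspan, hspanQ⟩ := exists_fixed_basis_L F₀ hD
  have hliQ : LinearIndependent ℚ b := hli.restrict_scalars' ℚ
  rw [← hspanQ, finrank_span_eq_card hliQ, Fintype.card_fin]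

/-- If `ℓ(D) ≥ 2` for an invariant divisor, `L(D)` contains a Galois-fixed non-constant
function. -/
theorem exists_fixed_nonconstant {D : Divisor Qb (laurentBaseChange Qb F₀)}
    (hD : IsInvariant F₀ D) (h2 : 2 ≤ ell D) :
    ∃ t : laurentBaseChange Qb F₀, t ∈ riemannRochSpace D ∧ IsFixed F₀ t ∧
      t ∉ Set.range (algebraMap Qb (laurentBaseChange Qb F₀)) := by
  classical
  obtain ⟨b, hbL, hbfix, hli, -, -⟩ := exists_fixed_basis_L F₀ hD
  by_contra hcon
  have hconst : ∀ i, ∃ c : Qb, algebraMap Qb (laurentBaseChange Qb F₀) c = b i := by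
    intro i
    by_contra hi
    exact hcon ⟨b i, hbL i, hbfix i, hi⟩
  choose c hc using hconst
  -- two constants are linearly dependent
  have h01 : (⟨0, by omega⟩ : Fin (ell D)) ≠ ⟨1, by omega⟩ := by
    intro h
    have := congrArg Fin.val h
    simp at this
  have hrel : c ⟨1, by omega⟩ • b ⟨0, by omega⟩ - c ⟨0, by omega⟩ • b ⟨1, by omega⟩ = 0 := by
    rw [← hc ⟨0, by omega⟩, ← hc ⟨1, by omega⟩, Algebra.smul_def, Algebra.smul_def,
      mul_comm, sub_self]
  have hb0 : b ⟨0, by omega⟩ ≠ 0 := hli.ne_zero _
  have hc0 : c ⟨0, by omega⟩ ≠ 0 := by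
    intro h
    apply hb0
    rw [← hc ⟨0, by omega⟩, h, map_zero]
  set i0 : Fin (ell D) := ⟨0, by omega⟩ with hi0
  set i1 : Fin (ell D) := ⟨1, by omega⟩ with hi1
  have hsum : ∑ i, (Pi.single i0 (c i1) - Pi.single i1 (c i0) : Fin (ell D) → Qb) i • b i
      = 0 := by
    simp only [Pi.sub_apply, sub_smul, Finset.sum_sub_distrib]
    rw [Finset.sum_eq_single i0 (fun j _ hj => by rw [Pi.single_eq_of_ne hj, zero_smul])
        (fun h => absurd (Finset.mem_univ _) h),
      Finset.sum_eq_single i1 (fun j _ hj => by rw [Pi.single_eq_of_ne hj, zero_smul])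
        (fun h => absurd (Finset.mem_univ _) h),
      Pi.single_eq_same, Pi.single_eq_same]
    exact hrel
  have h := (Fintype.linearIndependent_iff.mp hli) _ hsum i1
  rw [Pi.sub_apply, Pi.single_eq_of_ne (Ne.symm h01), Pi.single_eq_same, zero_sub,
    neg_eq_zero] at h
  exact hc0 h

end RR

end Fermat.Agent.S17.H680
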