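import Mathlib

/-!
# S17 / BASE-2 (helper680): Galois descent for semilinear actions (abstract part)

`L / k` a normal algebraic field extension, `G = Gal(L/k)`, `M` an `L`-vector space with a
semilinear action of `G`.  If `v ∈ M` is fixed by `Gal(L/K)` for a finite subextension `K / k`,
then `v` lies in the `L`-span of the `G`-fixed vectors of any `G`-stable subspace containing it
(`mem_span_fixed`).  If moreover `L / k` is Galois, `k`-linearly independent fixed vectors are
`L`-linearly independent (`linearIndependent_of_fixed`).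
-/

set_option autoImplicit false

noncomputable section

namespace Fermat.Agent.S17.H680

section Extend

variable {k L : Type*} [Field k] [Field L] [Algebra k L] [Normal k L]

/-- Extend an embedding of an intermediate field to an automorphism of `L`. -/
def extendEmb (K : IntermediateField k L) (τ : K →ₐ[k] L) : L ≃ₐ[k] L :=
  AlgEquiv.ofBijective (τ.liftNormal L) (Algebra.IsAlgebraic.algHom_bijective _)

theorem extendEmb_apply (K : IntermediateField k L) (τ : K →ₐ[k] L) (a : K) :
    extendEmb K τ (a : L) = τ a := by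
  have h := τ.liftNormal_commutes L a
  simpa [extendEmb] using h

end Extend

section Descent

variable {k L : Type*} [Field k] [Field L] [Algebra k L] [Normal k L]
variable {M : Type*} [AddCommGroup M] [Module L M] [DistribMulAction (L ≃ₐ[k] L) M]

/-- The trace of `v` from a finite level `K`. -/
def traceAt (K : IntermediateField k L) [FiniteDimensional k K] (v : M) : M :=
  ∑ τ : K →ₐ[k] L, extendEmb K τ • v

variable (hsemi : ∀ (σ : L ≃ₐ[k] L) (a : L) (m : M), σ • (a • m) = σ a • σ • m)

omit [Normal k L] [Module L M] in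
theorem smul_eq_of_agree (K : IntermediateField k L) {v : M}
    (hv : ∀ σ : L ≃ₐ[k] L, (∀ a ∈ K, σ a = a) → σ • v = v) {σ τ : L ≃ₐ[k] L}
    (h : ∀ a ∈ K, σ a = τ a) : σ • v = τ • v := by
  have h1 : (τ⁻¹ * σ) • v = v := by
    apply hv
    intro a ha
    rw [AlgEquiv.mul_apply, h a ha]
    exact τ.symm_apply_apply a
  calc σ • v = (τ * (τ⁻¹ * σ)) • v := by rw [mul_inv_cancel_left]
    _ = τ • v := by rw [mul_smul, h1]

omit [Normal k L] in
include hsemi in
theorem fixed_smul_of_mem (K : IntermediateField k L) {v : M}
    (hv : ∀ σ : L ≃ₐ[k] L, (∀ a ∈ K, σ a = a) → σ • v = v) {a : L} (ha : a ∈ K)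
    (σ : L ≃ₐ[k] L) (hσ : ∀ b ∈ K, σ b = b) : σ • (a • v) = a • v := by
  rw [hsemi, hσ a ha, hv σ hσ]

include hsemi in
/-- The trace of `a • v` is fixed by the Galois group. -/
theorem smul_traceAt (K : IntermediateField k L) [FiniteDimensional k K] {v : M}
    (hv : ∀ σ : L ≃ₐ[k] L, (∀ a ∈ K, σ a = a) → σ • v = v) {a : L} (ha : a ∈ K)
    (ρ : L ≃ₐ[k] L) : ρ • traceAt K (a • v) = traceAt K (a • v) := by
  classical
  unfold traceAt
  rw [Finset.smul_sum]
  -- reindex by `τ ↦ ρ ∘ τ`
  let e : (K →ₐ[k] L) ≃ (K →ₐ[k] L) :=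
    { toFun := fun τ => (ρ : L →ₐ[k] L).comp τ
      invFun := fun τ => ((ρ⁻¹ : L ≃ₐ[k] L) : L →ₐ[k] L).comp τ
      left_inv := fun τ => by
        ext x
        show (ρ⁻¹ : L ≃ₐ[k] L) (ρ (τ x)) = τ x
        exact ρ.symm_apply_apply _
      right_inv := fun τ => by
        ext x
        show ρ ((ρ⁻¹ : L ≃ₐ[k] L) (τ x)) = τ x
        exact ρ.apply_symm_apply _ }
  rw [← Equiv.sum_comp e (fun τ => extendEmb K τ • (a • v))]
  refine Finset.sum_congr rfl fun τ _ => ?_
  rw [← mul_smul]
  refine smul_eq_of_agree K (fixed_smul_of_mem hsemi K hv ha) ?_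
  intro b hb
  rw [AlgEquiv.mul_apply, extendEmb_apply K τ ⟨b, hb⟩, extendEmb_apply K (e τ) ⟨b, hb⟩]
  rfl

include hsemi in
/-- **Galois descent, spanning**: a vector fixed by an open subgroup lies in the span of the
fixed vectors of any stable subspace containing it. -/
theorem mem_span_fixed (V : Submodule L M) (hV : ∀ (σ : L ≃ₐ[k] L), ∀ m ∈ V, σ • m ∈ V)
    {v : M} (hvV : v ∈ V) (K : IntermediateField k L) [FiniteDimensional k K]
    (hv : ∀ σ : L ≃ₐ[k] L, (∀ a ∈ K, σ a = a) → σ • v = v) :
    v ∈ Submodule.span L {w : M | w ∈ V ∧ ∀ σ : L ≃ₐ[k] L, σ • w = w} := by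
  classical
  by_contra hnot
  obtain ⟨φ, hφv, hφ⟩ := Submodule.exists_le_ker_of_notMem hnot
  -- all traces are killed by `φ`
  have hT : ∀ a : K, φ (traceAt K ((a : L) • v)) = 0 := by
    intro a
    have hmem : traceAt K ((a : L) • v) ∈
        Submodule.span L {w : M | w ∈ V ∧ ∀ σ : L ≃ₐ[k] L, σ • w = w} := by
      refine Submodule.subset_span ⟨?_, fun σ => smul_traceAt hsemi K hv a.2 σ⟩
      unfold traceAt
      exact Submodule.sum_mem _ fun τ _ => hV _ _ (V.smul_mem _ hvV)
    exact hφ hmem
  -- a linear relation between the embeddings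
  have hrel : ∑ τ : K →ₐ[k] L, φ (extendEmb K τ • v) • (τ.toLinearMap : K →ₗ[k] L) = 0 := by
    ext a
    have := hT a
    unfold traceAt at this
    rw [map_sum] at this
    rw [LinearMap.sum_apply, LinearMap.zero_apply, ← this]
    refine Finset.sum_congr rfl fun τ _ => ?_
    have h1 : extendEmb K τ • ((a : L) • v) = τ a • (extendEmb K τ • v) := by
      rw [hsemi, extendEmb_apply]
    rw [h1, LinearMap.map_smul, LinearMap.smul_apply, AlgHom.toLinearMap_apply, smul_eq_mul,
      smul_eq_mul, mul_comm]
  have hli := linearIndependent_algHom_toLinearMap k K L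
  have h0 := (Fintype.linearIndependent_iff.mp hli) (fun τ => φ (extendEmb K τ • v)) hrel
    (K.val)
  apply hφv
  have h1 : extendEmb K K.val • v = v := by
    apply hv
    intro a ha
    exact extendEmb_apply K K.val ⟨a, ha⟩
  rw [← h1]
  exact h0

end Descent

section Independence

variable {k L : Type*} [Field k] [Field L] [Algebra k L] [IsGalois k L]
variable {M : Type*} [AddCommGroup M] [Module L M] [Module k M] [IsScalarTower k L M]
variable [DistribMulAction (L ≃ₐ[k] L) M]
variable (hsemi : ∀ (σ : L ≃ₐ[k] L) (a : L) (m : M), σ • (a • m) = σ a • σ • m)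

include hsemi in
/-- **Galois descent, independence**: `k`-linearly independent fixed vectors are `L`-linearly
independent. -/
theorem linearIndependent_of_fixed {ι : Type*} (w : ι → M)
    (hw : ∀ (σ : L ≃ₐ[k] L) (i : ι), σ • w i = w i) (hli : LinearIndependent k w) :
    LinearIndependent L w := by
  classical
  rw [linearIndependent_iff']
  -- strong induction on the size of the support
  have key : ∀ n : ℕ, ∀ s : Finset ι, s.card = n → ∀ c : ι → L,
      ∑ i ∈ s, c i • w i = 0 → ∀ i ∈ s, c i = 0 := by
    intro n
    induction n using Nat.strong_induction_on with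
    | _ n ih =>
      intro s hs c hc i₀ hi₀
      by_contra hne
      -- normalise the coefficient at `i₀`
      set c' : ι → L := fun i => (c i₀)⁻¹ * c i with hc'
      have hc'0 : c' i₀ = 1 := inv_mul_cancel₀ hne
      have hsum' : ∑ i ∈ s, c' i • w i = 0 := by
        have : ∑ i ∈ s, c' i • w i = (c i₀)⁻¹ • ∑ i ∈ s, c i • w i := by
          rw [Finset.smul_sum]
          refine Finset.sum_congr rfl fun i _ => ?_
          rw [hc', mul_smul]
        rw [this, hc, smul_zero]
      -- all coefficients are Galois-fixed
      have hfix : ∀ σ : L ≃ₐ[k] L, ∀ i ∈ s, σ (c' i) = c' i := by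
        intro σ i hi
        have h1 : ∑ j ∈ s, σ (c' j) • w j = 0 := by
          have := congrArg (fun m => σ • m) hsum'
          simp only [Finset.smul_sum, smul_zero] at this
          rw [← this]
          refine Finset.sum_congr rfl fun j _ => ?_
          rw [hsemi, hw]
        have h2 : ∑ j ∈ s.erase i₀, (σ (c' j) - c' j) • w j = 0 := by
          have h3 : ∑ j ∈ s, (σ (c' j) - c' j) • w j = 0 := by
            simp only [sub_smul, Finset.sum_sub_distrib, h1, hsum', sub_zero]
          rw [← Finset.add_sum_erase s _ hi₀] at h3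
          rw [hc'0, map_one, sub_self, zero_smul, zero_add] at h3
          exact h3
        by_cases hii : i = i₀
        · rw [hii, hc'0, map_one]
        · have hcard : (s.erase i₀).card < n := by
            rw [Finset.card_erase_of_mem hi₀, hs]
            have : 0 < s.card := Finset.card_pos.mpr ⟨i₀, hi₀⟩
            omega
          have := ih _ hcard (s.erase i₀) rfl (fun j => σ (c' j) - c' j) h2 i
            (Finset.mem_erase.mpr ⟨hii, hi⟩)
          exact sub_eq_zero.mp this
      -- hence they come from `k`
      have hk : ∀ i ∈ s, ∃ d : k, algebraMap k L d = c' i := by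
        intro i hi
        exact (InfiniteGalois.mem_range_algebraMap_iff_fixed (c' i)).mpr fun σ => hfix σ i hi
      choose! d hd using hk
      have hsumk : ∑ i ∈ s, d i • w i = 0 := by
        rw [← hsum']
        refine Finset.sum_congr rfl fun i hi => ?_
        rw [← hd i hi, algebraMap_smul]
      have := (linearIndependent_iff'.mp hli) s d hsumk i₀ hi₀
      have h1 : c' i₀ = 0 := by rw [← hd i₀ hi₀, this, map_zero]
      rw [hc'0] at h1
      exact one_ne_zero h1
  intro s c hc i hi
  exact key s.card s rfl c hc i hi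

end Independence

end Fermat.Agent.S17.H680
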