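import Fermat.Agent.S17.H680.DescentRR
import Fermat.Agent.Lib.RR.Duality

/-!
# S17 / piece GEN (helper680): generic rational members of a linear system

`F = ℚ̄ · F₀` with the coefficientwise Galois action.  For a Galois-invariant divisor `D₀` of
degree `≥ 2g + 1` and a finite set `S` of places there is a Galois-fixed `f ∈ L(D₀)` such that
`D₀ + div f` is effective, reduced, Galois-invariant and disjoint from `S`
(`exists_generic_of_finiteBranch`), provided functions have finitely many branch values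
(`FiniteBranch`, a hypothesis here).
-/

set_option autoImplicit false

noncomputable section

open AlgebraicCurve ModularCurve

namespace Fermat.Agent.S17.H680

open Fermat.Agent.Lib.RR Fermat.Agent.S17.H77

section General

variable {K F : Type*} [Field K] [Field F] [Algebra K F]

/-- A non-constant function has only finitely many branch values. -/
def FiniteBranch (K F : Type*) [Field K] [Field F] [Algebra K F] : Prop :=
  ∀ s : F, s ∉ Set.range (algebraMap K F) →
    {c : K | ∃ P : Place K F, 2 ≤ P.ord (s - algebraMap K F c)}.Finite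

variable [FF1 K F]

/-- The divisor of zeros of the section `f` of `D`. -/
def secDiv (D : Divisor K F) (f : F) (hf : f ≠ 0) : Divisor K F := D + divOf f hf

theorem secDiv_apply (D : Divisor K F) (f : F) (hf : f ≠ 0) (P : Place K F) :
    secDiv D f hf P = D P + P.ord f := by
  rw [secDiv, Finsupp.add_apply, divOf_apply]

theorem secDiv_nonneg {D : Divisor K F} {f : F} (hf : f ≠ 0) (hfL : f ∈ riemannRochSpace D) :
    0 ≤ secDiv D f hf :=
  (mem_L_iff_nonneg hf).mp hfL

theorem degree_secDiv (D : Divisor K F) (f : F) (hf : f ≠ 0) :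
    Divisor.degree (secDiv D f hf) = Divisor.degree D := by
  rw [secDiv, map_add, degree_divOf, add_zero]

/-- A section not in `L(D - P)` does not vanish at `P`. -/
theorem secDiv_apply_eq_zero {D : Divisor K F} {f : F} (hf : f ≠ 0)
    (hfL : f ∈ riemannRochSpace D) {P : Place K F}
    (hP : f ∉ riemannRochSpace (D - prim P)) : secDiv D f hf P = 0 := by
  have h0 : (0 : ℤ) ≤ secDiv D f hf P := by
    simpa using Finsupp.le_def.mp (secDiv_nonneg hf hfL) P
  by_contra hne
  apply hP
  rw [mem_L_iff]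
  intro Q
  right
  have hQ := (mem_L_iff.mp hfL Q).resolve_left hf
  rw [Finsupp.sub_apply]
  by_cases hQP : Q = P
  · subst hQP
    rw [prim_apply_self]
    rw [secDiv_apply] at h0 hne
    omega
  · rw [prim_apply_of_ne hQP]
    omega

theorem mem_L_sub_prim_iff {D : Divisor K F} {f : F} (hf : f ≠ 0)
    (hfL : f ∈ riemannRochSpace D) {P : Place K F} :
    f ∈ riemannRochSpace (D - prim P) ↔ 1 ≤ secDiv D f hf P := by
  constructor
  · intro h
    have := (mem_L_iff.mp h P).resolve_left hf
    rw [Finsupp.sub_apply, prim_apply_self] at this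
    rw [secDiv_apply]
    omega
  · intro h
    by_contra hP
    have := secDiv_apply_eq_zero hf hfL hP
    omega

/-- Base-point freeness: for `deg D ≥ 2g`, `L(D - P)` is a proper subspace of `L(D)`. -/
theorem exists_not_mem_sub_prim {D : Divisor K F}
    (hD : 2 * (genusFF K F : ℤ) ≤ Divisor.degree D) (P : Place K F) :
    ∃ f ∈ riemannRochSpace D, f ∉ riemannRochSpace (D - prim P) := by
  have h1 := ell_eq_of_degree_gt (D := D) (by omega)
  have h2 := ell_eq_of_degree_gt (D := D - prim P) (by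
    rw [map_sub, degree_prim P (deg_eq_one P)]; omega)
  rw [map_sub, degree_prim P (deg_eq_one P)] at h2
  have hlt : ell (D - prim P) < ell D := by
    have : (ell (D - prim P) : ℤ) < ell D := by omega
    exact_mod_cast this
  by_contra hcon
  have hle : riemannRochSpace D ≤ riemannRochSpace (D - prim P) := by
    intro f hf
    by_contra hf'
    exact hcon ⟨f, hf, hf'⟩
  have := Submodule.finrank_mono hle
  unfold ell at hlt
  omega

omit [FF1 K F] in
/-- A function takes at most one constant value at a place. -/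
theorem const_unique_of_ord_pos (P : Place K F) (s : F) {c c' : K}
    (h : 0 < P.ord (s - algebraMap K F c)) (h' : 0 < P.ord (s - algebraMap K F c')) :
    c = c' := by
  by_contra hne
  have hcc : algebraMap K F (c' - c) ≠ 0 := by
    intro h0
    rw [map_eq_zero_iff _ (algebraMap K F).injective, sub_eq_zero] at h0
    exact hne h0.symm
  have h0 : P.ord (algebraMap K F (c' - c)) = 0 := ord_algebraMap P _
  have heq : (s - algebraMap K F c) + (-(s - algebraMap K F c')) = algebraMap K F (c' - c) := by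
    rw [map_sub]; ring
  have hnz1 : s - algebraMap K F c ≠ 0 := ne_zero_of_ord_ne_zero P h.ne'
  have hnz2 : -(s - algebraMap K F c') ≠ 0 :=
    neg_ne_zero.mpr (ne_zero_of_ord_ne_zero P h'.ne')
  have h3 := ord_add P hnz1 hnz2 (by rw [heq]; exact hcc)
  rw [heq, h0, ord_neg] at h3
  omega

/-- **Pencil lemma** (Bertini for pencils on a curve): if `f₀, f₁ ∈ L(D)` have disjoint zero
divisors (as sections of `D`) and `f₀` does vanish somewhere, then for all but finitely many
constants `c` the section `f₁ - c f₀` has a reduced divisor avoiding a given finite set. -/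
theorem exists_pencil_member (hFB : FiniteBranch K F) {D : Divisor K F} {f₀ f₁ : F}
    (hf₀ : f₀ ≠ 0) (hf₁ : f₁ ≠ 0)
    (h₀ : f₀ ∈ riemannRochSpace D) (h₁ : f₁ ∈ riemannRochSpace D)
    (hdisj : ∀ P, 0 < secDiv D f₀ hf₀ P → secDiv D f₁ hf₁ P = 0)
    (hpos : ∃ P, 0 < secDiv D f₀ hf₀ P)
    (S : Finset (Place K F)) {C : Set K} (hC : C.Infinite) :
    ∃ c ∈ C, ∃ hne : f₁ - c • f₀ ≠ 0, f₁ - c • f₀ ∈ riemannRochSpace D ∧
      (∀ P, secDiv D (f₁ - c • f₀) hne P ≤ 1) ∧
      ∀ P ∈ S, secDiv D (f₁ - c • f₀) hne P = 0 := by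
  classical
  set s : F := f₁ * f₀⁻¹ with hs
  have hs_nc : s ∉ Set.range (algebraMap K F) := by
    rintro ⟨c, hc⟩
    obtain ⟨P, hP⟩ := hpos
    have h1 := hdisj P hP
    have hf1 : f₁ = algebraMap K F c * f₀ := by
      rw [hc, hs, mul_assoc, inv_mul_cancel₀ hf₀, mul_one]
    have hc0 : algebraMap K F c ≠ 0 := by
      intro h0
      rw [h0, zero_mul] at hf1
      exact hf₁ hf1
    have hord : P.ord f₁ = P.ord f₀ := by
      rw [hf1, P.ord_mul hc0 hf₀, ord_algebraMap, zero_add]
    rw [secDiv_apply] at h1 hP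
    omega
  have hkey : ∀ c : K, f₁ - c • f₀ = f₀ * (s - algebraMap K F c) := by
    intro c
    rw [Algebra.smul_def, hs, mul_sub, mul_comm f₀ (f₁ * f₀⁻¹), mul_assoc,
      inv_mul_cancel₀ hf₀, mul_one, mul_comm f₀]
  have hsc : ∀ c : K, s - algebraMap K F c ≠ 0 := by
    intro c h0
    exact hs_nc ⟨c, (sub_eq_zero.mp h0).symm⟩
  have hne : ∀ c : K, f₁ - c • f₀ ≠ 0 := by
    intro c
    rw [hkey]
    exact mul_ne_zero hf₀ (hsc c)
  have hmem : ∀ c : K, f₁ - c • f₀ ∈ riemannRochSpace D := fun c =>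
    Submodule.sub_mem _ h₁ (Submodule.smul_mem _ c h₀)
  have hform : ∀ (c : K) (P : Place K F), secDiv D (f₁ - c • f₀) (hne c) P
      = secDiv D f₀ hf₀ P + P.ord (s - algebraMap K F c) := by
    intro c P
    rw [secDiv_apply, secDiv_apply]
    have : P.ord (f₁ - c • f₀) = P.ord f₀ + P.ord (s - algebraMap K F c) := by
      rw [hkey c, P.ord_mul hf₀ (hsc c)]
    rw [this, add_assoc]
  -- at a zero of `f₀` the member does not vanish
  have hzero : ∀ (c : K) (P : Place K F), 0 < secDiv D f₀ hf₀ P →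
      secDiv D (f₁ - c • f₀) (hne c) P = 0 := by
    intro c P hP
    have h1 := hdisj P hP
    rw [secDiv_apply] at h1 hP ⊢
    have hord : P.ord (f₁ - c • f₀) = P.ord f₁ := by
      rcases eq_or_ne c 0 with rfl | hc
      · rw [zero_smul, sub_zero]
      · have hc' : algebraMap K F c ≠ 0 := by
          intro h0
          exact hc ((map_eq_zero_iff _ (algebraMap K F).injective).mp h0)
        have hcf : -(c • f₀) ≠ 0 := by
          rw [Algebra.smul_def]
          exact neg_ne_zero.mpr (mul_ne_zero hc' hf₀)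
        have hlt : P.ord f₁ < P.ord (-(c • f₀)) := by
          rw [ord_neg, Algebra.smul_def, P.ord_mul hc' hf₀, ord_algebraMap, zero_add]
          omega
        rw [sub_eq_add_neg]
        exact ord_add_eq_of_lt P hf₁ hcf hlt
    rw [hord]
    exact h1
  have hB1 : {c : K | ∃ P : Place K F, 2 ≤ P.ord (s - algebraMap K F c)}.Finite := hFB s hs_nc
  have hB2 : {c : K | ∃ P ∈ S, 0 < P.ord (s - algebraMap K F c)}.Finite := by
    have hsub : {c : K | ∃ P ∈ S, 0 < P.ord (s - algebraMap K F c)} ⊆
        ⋃ P ∈ (S : Set (Place K F)), {c : K | 0 < P.ord (s - algebraMap K F c)} := by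
      rintro c ⟨P, hP, hc⟩
      exact Set.mem_biUnion (Finset.mem_coe.mpr hP) hc
    refine Set.Finite.subset (Set.Finite.biUnion S.finite_toSet fun P _ => ?_) hsub
    apply Set.Subsingleton.finite
    intro c hc c' hc'
    exact const_unique_of_ord_pos P s hc hc'
  obtain ⟨c, hcC, hcB⟩ := (hC.sdiff (hB1.union hB2)).nonempty
  have hc1 : ∀ P : Place K F, ¬ 2 ≤ P.ord (s - algebraMap K F c) := fun P hP =>
    hcB (Or.inl ⟨P, hP⟩)
  have hc2 : ∀ P ∈ S, ¬ 0 < P.ord (s - algebraMap K F c) := fun P hPS hP =>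
    hcB (Or.inr ⟨P, hPS, hP⟩)
  have hnn0 : ∀ P : Place K F, 0 ≤ secDiv D f₀ hf₀ P := fun P => by
    simpa using Finsupp.le_def.mp (secDiv_nonneg hf₀ h₀) P
  have hnnc : ∀ P : Place K F, 0 ≤ secDiv D (f₁ - c • f₀) (hne c) P := fun P => by
    simpa using Finsupp.le_def.mp (secDiv_nonneg (hne c) (hmem c)) P
  refine ⟨c, hcC, hne c, hmem c, fun P => ?_, fun P hPS => ?_⟩
  · rcases (hnn0 P).lt_or_eq with h | h
    · rw [hzero c P h]
      exact zero_le_one
    · have := hform c P
      have := hc1 P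
      omega
  · rcases (hnn0 P).lt_or_eq with h | h
    · exact hzero c P h
    · have h1 := hform c P
      have h2 := hc2 P hPS
      have h3 := hnnc P
      omega

end General

/-! ### Rational sections avoiding finitely many places -/

section Rational

variable (F₀ : IntermediateField ℚ (LaurentSeries ℚ)) [FF1 Qb (laurentBaseChange Qb F₀)]

/-- A Galois-fixed section of `D` (invariant, `deg D ≥ 2g`) not vanishing at any place of a
given finite set. -/
theorem exists_fixed_avoiding {D : Divisor Qb (laurentBaseChange Qb F₀)}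
    (hD : IsInvariant F₀ D)
    (hdeg : 2 * (genusFF Qb (laurentBaseChange Qb F₀) : ℤ) ≤ Divisor.degree D)
    (T : Finset (Place Qb (laurentBaseChange Qb F₀))) :
    ∃ (f : laurentBaseChange Qb F₀) (hf : f ≠ 0), f ∈ riemannRochSpace D ∧ IsFixed F₀ f ∧
      ∀ P ∈ T, secDiv D f hf P = 0 := by
  classical
  set V := riemannRochSpace D with hV
  set W := fixedPart F₀ V with hW
  have hspan : Submodule.span Qb {f | f ∈ V ∧ IsFixed F₀ f} = V :=
    span_fixed_eq F₀ V fun σ _ hf => smul_mem_L_of_isInvariant F₀ hD σ hf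
  -- the proper subspaces to avoid
  let sub : Place Qb (laurentBaseChange Qb F₀) → Subspace ℚ W := fun P =>
    Submodule.comap W.subtype ((riemannRochSpace (D - prim P)).restrictScalars ℚ)
  have hsub : ∀ P, sub P ≠ ⊤ := by
    intro P htop
    obtain ⟨f, hfV, hfP⟩ := exists_not_mem_sub_prim hdeg P
    apply hfP
    have hle : V ≤ riemannRochSpace (D - prim P) := by
      rw [← hspan, Submodule.span_le]
      intro g hg
      have hgW : (⟨g, hg⟩ : W) ∈ sub P := by rw [htop]; exact Submodule.mem_top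
      exact hgW
    exact hle hfV
  have hbot : (⊥ : Subspace ℚ W) ≠ ⊤ := by
    intro h
    obtain ⟨P₀⟩ := (FF1.nonempty_place : Nonempty (Place Qb (laurentBaseChange Qb F₀)))
    obtain ⟨f, hfV, hfP⟩ := exists_not_mem_sub_prim hdeg P₀
    have hf0 : f ≠ 0 := by
      rintro rfl
      exact hfP (Submodule.zero_mem _)
    have hle : V ≤ ⊥ := by
      rw [← hspan, Submodule.span_le]
      intro g hg
      have hgW : (⟨g, hg⟩ : W) ∈ (⊥ : Subspace ℚ W) := by rw [h]; exact Submodule.mem_top
      have : (⟨g, hg⟩ : W) = 0 := (Submodule.mem_bot ℚ).mp hgW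
      have hg0 : g = 0 := congrArg Subtype.val this
      rw [hg0]
      exact Submodule.zero_mem _
    exact hf0 ((Submodule.mem_bot Qb).mp (hle hfV))
  let s : Finset (Subspace ℚ W) := insert ⊥ (T.image sub)
  have hs : ⊤ ∉ s := by
    intro h
    rcases Finset.mem_insert.mp h with h | h
    · exact hbot h.symm
    · obtain ⟨P, -, hP⟩ := Finset.mem_image.mp h
      exact hsub P hP
  have hne := Subspace.biUnion_ne_univ_of_top_notMem hs
  obtain ⟨w, hw⟩ : ∃ w : W, w ∉ ⋃ p ∈ s, (p : Set W) := by
    by_contra hcon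
    apply hne
    ext w
    simp only [Set.mem_univ, iff_true]
    by_contra hw
    exact hcon ⟨w, hw⟩
  simp only [Set.mem_iUnion, not_exists] at hw
  have hw0 : (w : laurentBaseChange Qb F₀) ≠ 0 := by
    intro h0
    apply hw ⊥ (Finset.mem_insert_self _ _)
    show w ∈ (⊥ : Subspace ℚ W)
    rw [Submodule.mem_bot]
    exact Subtype.ext h0
  refine ⟨w, hw0, w.2.1, w.2.2, fun P hP => ?_⟩
  apply secDiv_apply_eq_zero hw0 w.2.1
  intro hmem
  apply hw (sub P) (Finset.mem_insert_of_mem (Finset.mem_image_of_mem _ hP))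
  exact hmem

/-- **GEN** (hypothesis-explicit on `FiniteBranch`): for a Galois-invariant divisor `D` with
`deg D ≥ max (2g) 1` and a finite set `S` of places there is a Galois-fixed `f ∈ L(D)` such that
`D + div f` is effective, reduced, disjoint from `S` and Galois-invariant. -/
theorem exists_generic_of_finiteBranch
    (hFB : FiniteBranch Qb (laurentBaseChange Qb F₀))
    {D : Divisor Qb (laurentBaseChange Qb F₀)} (hD : IsInvariant F₀ D)
    (hdeg : 2 * (genusFF Qb (laurentBaseChange Qb F₀) : ℤ) ≤ Divisor.degree D)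
    (hpos : 0 < Divisor.degree D)
    (S : Finset (Place Qb (laurentBaseChange Qb F₀))) :
    ∃ (f : laurentBaseChange Qb F₀) (hf : f ≠ 0), f ∈ riemannRochSpace D ∧ IsFixed F₀ f ∧
      0 ≤ secDiv D f hf ∧ (∀ P, secDiv D f hf P ≤ 1) ∧ (∀ P ∈ S, secDiv D f hf P = 0) ∧
      IsInvariant F₀ (secDiv D f hf) := by
  classical
  obtain ⟨f₀, hf₀, h₀, hfix₀, -⟩ := exists_fixed_avoiding F₀ hD hdeg ∅
  obtain ⟨f₁, hf₁, h₁, hfix₁, hav⟩ :=
    exists_fixed_avoiding F₀ hD hdeg (secDiv D f₀ hf₀).support
  have hdisj : ∀ P, 0 < secDiv D f₀ hf₀ P → secDiv D f₁ hf₁ P = 0 := fun P hP =>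
    hav P (Finsupp.mem_support_iff.mpr hP.ne')
  have hnn0 : ∀ P, 0 ≤ secDiv D f₀ hf₀ P := fun P => by
    simpa using Finsupp.le_def.mp (secDiv_nonneg hf₀ h₀) P
  have hex : ∃ P, 0 < secDiv D f₀ hf₀ P := by
    by_contra hcon
    have hz : secDiv D f₀ hf₀ = 0 := by
      ext P
      have h1 := hnn0 P
      have h2 : ¬ 0 < secDiv D f₀ hf₀ P := fun h => hcon ⟨P, h⟩
      rw [Finsupp.zero_apply]
      omega
    have hd := degree_secDiv D f₀ hf₀
    rw [hz, map_zero] at hd
    omega
  have hC : (Set.range ((↑) : ℚ → Qb)).Infinite :=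
    Set.infinite_range_of_injective Rat.cast_injective
  obtain ⟨c, ⟨r, rfl⟩, hne, hmem, hred, hS⟩ :=
    exists_pencil_member hFB hf₀ hf₁ h₀ h₁ hdisj hex S hC
  have hfix : IsFixed F₀ (f₁ - (r : Qb) • f₀) := by
    intro σ
    have h1 := smul_sub (arithmeticGalois F₀ σ) f₁ ((r : Qb) • f₀)
    have h2 := arithmeticGalois_smul_smul F₀ σ (r : Qb) f₀
    have h3 : σ (r : Qb) = r := map_ratCast σ r
    have h4 : arithmeticGalois F₀ σ • ((r : Qb) • f₀) = (r : Qb) • f₀ :=
      h2.trans ((congrArg (fun a : Qb => a • (arithmeticGalois F₀ σ • f₀)) h3).trans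
        (congrArg (fun g => (r : Qb) • g) (hfix₀ σ)))
    exact h1.trans (congrArg₂ (fun a b => a - b) (hfix₁ σ) h4)
  refine ⟨_, hne, hmem, hfix, secDiv_nonneg hne hmem, hred, hS, fun σ => ?_⟩
  rw [secDiv, smul_add, hD σ, smul_divOf]
  congr 1
  exact divOf_congr _ (hfix σ)


end Rational

end Fermat.Agent.S17.H680
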