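import Fermat.Agent.S17.H680.Branch
import Fermat.Agent.S17.H680.Rational

/-!
# S17 / piece GEN (helper680): generic rational representatives of rational classes

* `exists_generic` : for a Galois-invariant divisor `D` of degree `≥ max (2g) 1` and a finite set
  `S` of places there is a Galois-fixed `f ∈ L(D)` with `D + div f` effective, reduced, disjoint
  from `S` and Galois-invariant (unconditional form of `exists_generic_of_finiteBranch`).
* `exists_generic_rep` : a Galois-fixed class `x` is represented, for every large `d`, as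
  `[D - d ∞]` with `D` effective, reduced, Galois-invariant, of degree `d`, disjoint from `S`.
* `JZero.exists_generic_rep` : the same for `J₀(N)(ℚ)`.
-/

set_option autoImplicit false

noncomputable section

open AlgebraicCurve ModularCurve

namespace Fermat.Agent.S17.H680

open Fermat.Agent.Lib.RR Fermat.Agent.S17.H77

section Abstract

variable (F₀ : IntermediateField ℚ (LaurentSeries ℚ)) [FF1 Qb (laurentBaseChange Qb F₀)]

/-- **GEN**: for a Galois-invariant divisor `D` with `deg D ≥ max (2g) 1` and a finite set `S`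
of places there is a Galois-fixed `f ∈ L(D)` such that `D + div f` is effective, reduced,
disjoint from `S` and Galois-invariant. -/
theorem exists_generic
    {D : Divisor Qb (laurentBaseChange Qb F₀)} (hD : IsInvariant F₀ D)
    (hdeg : 2 * (genusFF Qb (laurentBaseChange Qb F₀) : ℤ) ≤ Divisor.degree D)
    (hpos : 0 < Divisor.degree D)
    (S : Finset (Place Qb (laurentBaseChange Qb F₀))) :
    ∃ (f : laurentBaseChange Qb F₀) (hf : f ≠ 0), f ∈ riemannRochSpace D ∧ IsFixed F₀ f ∧
      0 ≤ secDiv D f hf ∧ (∀ P, secDiv D f hf P ≤ 1) ∧ (∀ P ∈ S, secDiv D f hf P = 0) ∧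
      IsInvariant F₀ (secDiv D f hf) :=
  exists_generic_of_finiteBranch F₀ finiteBranch hD hdeg hpos S

/-- **GEN for classes**: a Galois-fixed class `x` is `[D - d v∞]` with `D` effective, reduced,
Galois-invariant of degree `d` and disjoint from a given finite set of places, for every
`d ≥ max (minDeg x) (2g) 1` (`v∞` a Galois-invariant place). -/
theorem exists_generic_rep (vinf : Place Qb (laurentBaseChange Qb F₀))
    (hvinf : ∀ σ : GQ, arithmeticGalois F₀ σ • vinf = vinf)
    (x : Pic0 Qb (laurentBaseChange Qb F₀))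
    (hx : ∀ σ : GQ, arithmeticGalois F₀ σ • x = x)
    (d : ℕ) (hd1 : minDeg vinf x ≤ d)
    (hd2 : 2 * genusFF Qb (laurentBaseChange Qb F₀) ≤ d) (hd3 : 0 < d)
    (S : Finset (Place Qb (laurentBaseChange Qb F₀))) :
    ∃ D : Divisor Qb (laurentBaseChange Qb F₀), 0 ≤ D ∧ (∀ P, D P ≤ 1) ∧ (∀ P ∈ S, D P = 0) ∧
      IsInvariant F₀ D ∧ Divisor.degree D = d ∧
      ∃ hdeg : Divisor.degree (D - d • prim vinf) = 0,
        Pic0.mk ⟨D - d • prim vinf, hdeg⟩ = x := by
  obtain ⟨k, rfl⟩ := Nat.exists_eq_add_of_le hd1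
  set D₀ : Divisor Qb (laurentBaseChange Qb F₀) := minRep vinf x + k • prim vinf with hD₀
  have hinv : IsInvariant F₀ D₀ := by
    intro σ
    have h1 : arithmeticGalois F₀ σ • minRep vinf x = minRep vinf x :=
      smul_minRep_eq _ (hvinf σ) (hx σ)
    have h2 : arithmeticGalois F₀ σ • (k • prim vinf) = k • prim vinf := by
      have h3 := smul_comm (arithmeticGalois F₀ σ) k (prim vinf)
      have h4 := smul_prim (arithmeticGalois F₀ σ) vinf
      rw [h4, hvinf σ] at h3
      exact h3
    exact (smul_add (arithmeticGalois F₀ σ) (minRep vinf x) (k • prim vinf)).trans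
      (congrArg₂ (fun a b => a + b) h1 h2)
  have hdegD₀ : Divisor.degree D₀ = ((minDeg vinf x + k : ℕ) : ℤ) := by
    rw [hD₀, map_add, degree_minRep, map_nsmul, degree_prim vinf (deg_eq_one vinf)]
    push_cast
    simp
  obtain ⟨f, hf, -, -, hnn, hred, hS, hinvD⟩ := exists_generic F₀ hinv
    (by rw [hdegD₀]; exact_mod_cast hd2) (by rw [hdegD₀]; exact_mod_cast hd3) S
  have hdegD : Divisor.degree (secDiv D₀ f hf) = ((minDeg vinf x + k : ℕ) : ℤ) := by
    rw [degree_secDiv, hdegD₀]
  have hdeg0 : Divisor.degree (secDiv D₀ f hf - (minDeg vinf x + k) • prim vinf) = 0 := by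
    rw [map_sub, hdegD, map_nsmul, degree_prim vinf (deg_eq_one vinf)]
    simp
  refine ⟨secDiv D₀ f hf, hnn, hred, hS, hinvD, hdegD, hdeg0, ?_⟩
  have hmk := mk_minDiv vinf x
  refine Eq.trans (Eq.symm ?_) hmk
  rw [mk_eq_mk_iff']
  refine ⟨f, hf, ?_⟩
  show secDiv D₀ f hf - (minDeg vinf x + k) • prim vinf
    = (minDiv vinf x : Divisor _ _) + divOf f hf
  rw [coe_minDiv, secDiv, hD₀, add_nsmul]
  abel

end Abstract

section Modular

variable (N : ℕ) [NeZero N]

/-- **GEN for `J₀(N)(ℚ)`**: every rational point `x` is `[D - d ∞]` with `D` an effective,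
reduced, Galois-invariant divisor of degree `d` disjoint from a given finite set of places, for
every `d ≥ max (minDeg x) (2g) 1`. -/
theorem JZero.exists_generic_rep {x : JZero N}
    (hx : x ∈ FixedPoints.addSubgroup (AlgebraicClosure ℚ ≃ₐ[ℚ] AlgebraicClosure ℚ) (JZero N))
    (d : ℕ) (hd1 : minDeg (JZero.cusp N) x ≤ d)
    (hd2 : 2 * genusFF (AlgebraicClosure ℚ) (modularFunctionFieldBar N) ≤ d) (hd3 : 0 < d)
    (S : Finset (Place (AlgebraicClosure ℚ) (modularFunctionFieldBar N))) :
    ∃ D : Divisor (AlgebraicClosure ℚ) (modularFunctionFieldBar N),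
      0 ≤ D ∧ (∀ P, D P ≤ 1) ∧ (∀ P ∈ S, D P = 0) ∧
      IsInvariant (modularFunctionFieldFull N) D ∧ Divisor.degree D = d ∧
      ∃ hdeg : Divisor.degree (D - d • prim (JZero.cusp N)) = 0,
        Pic0.mk ⟨D - d • prim (JZero.cusp N), hdeg⟩ = x :=
  Fermat.Agent.S17.H680.exists_generic_rep (modularFunctionFieldFull N) (JZero.cusp N)
    (JZero.galois_smul_cusp N) x
    ((JZero.mem_fixedPoints_iff N x).mp hx) d hd1 hd2 hd3 S

end Modular

end Fermat.Agent.S17.H680
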